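/-
Programme V (S32), chapter V32, helper18: **a Boston–Lenstra–Ribet lemma over a commutative ring in
which `2` is invertible** (pure algebra, Mathlib only).

`V` free of rank two over `T`, `ρ : G →* End_T V` whose image spans `End_T V`, `M` any `T`-module with
`ρM : G →* End_T M` such that every `g` satisfies on `M` the (linearised) characteristic equation of
`ρ g`:  `ρM g + det (ρ g) • ρM g⁻¹ = tr (ρ g) • 1`.  Then the action of `G` on `M` factors through
`End_T V`: there is a `T`-algebra homomorphism `Φ : End_T V →ₐ[T] End_T M` with `Φ (ρ g) = ρM g`.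

Proof.  `𝔄 ⊂ End V × End M` is the span of the pairs `(ρ g, ρM g)`.  The bilinear identity
`tr (A A') • 1 - Y Y' = (tr A' • 1 - Y') (tr A • 1 - Y)` holds on generators, hence on `𝔄`.  With
`(A', Y') = (A, Y)` it gives `Y² - tr A • Y + det A • 1 = 0` (here `2` is inverted); with `A = 0` it
gives `X Y' + Y' X = tr A' • X` for `(0, X) ∈ 𝔄`.  Taking `(E₁₂, U), (E₂₁, W) ∈ 𝔄`, `e = U W` is an
idempotent, `X` anticommutes with `U` and `W`, hence commutes with `e`, and `X = 2 e X`, so `X = 0`:
`𝔄` is the graph of `Φ`.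
-/
import Mathlib

set_option autoImplicit false

open Module

noncomputable section

namespace Fermat.Agent.ES.V32.BLR18

variable {T : Type*} [CommRing T] {G : Type*} [Group G]
  {V : Type*} [AddCommGroup V] [Module T V]
  {M : Type*} [AddCommGroup M] [Module T M]

/-! ### Two by two identities -/

/-- `(tr A)² - tr (A²) = 2 det A` for `2 × 2` matrices. -/
theorem matrix_trace_sq (A : Matrix (Fin 2) (Fin 2) T) :
    A.trace * A.trace - (A * A).trace = 2 * A.det := by
  rw [Matrix.trace_fin_two, Matrix.trace_fin_two, Matrix.det_fin_two, Matrix.mul_apply,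
    Matrix.mul_apply, Fin.sum_univ_two, Fin.sum_univ_two]
  ring

/-- `(tr A)² - tr (A²) = 2 det A` for endomorphisms of a free module of rank two. -/
theorem end_trace_sq (b : Basis (Fin 2) T V) (A : End T V) :
    LinearMap.trace T V A * LinearMap.trace T V A - LinearMap.trace T V (A * A) =
      2 * LinearMap.det A := by
  rw [LinearMap.trace_eq_matrix_trace T b, LinearMap.trace_eq_matrix_trace T b,
    ← LinearMap.det_toMatrix b, LinearMap.toMatrix_mul]
  exact matrix_trace_sq _

/-- the matrix unit `E₁₂`. -/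
def e12 (b : Basis (Fin 2) T V) : End T V := Matrix.toLin b b !![0, 1; 0, 0]

/-- the matrix unit `E₂₁`. -/
def e21 (b : Basis (Fin 2) T V) : End T V := Matrix.toLin b b !![0, 0; 1, 0]

theorem trace_e12 (b : Basis (Fin 2) T V) : LinearMap.trace T V (e12 b) = 0 := by
  rw [e12, LinearMap.trace_eq_matrix_trace T b, LinearMap.toMatrix_toLin, Matrix.trace_fin_two_of,
    add_zero]

theorem det_e12 (b : Basis (Fin 2) T V) : LinearMap.det (e12 b) = 0 := by
  rw [e12, LinearMap.det_toLin, Matrix.det_fin_two_of]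
  ring

theorem trace_e21 (b : Basis (Fin 2) T V) : LinearMap.trace T V (e21 b) = 0 := by
  rw [e21, LinearMap.trace_eq_matrix_trace T b, LinearMap.toMatrix_toLin, Matrix.trace_fin_two_of,
    add_zero]

theorem det_e21 (b : Basis (Fin 2) T V) : LinearMap.det (e21 b) = 0 := by
  rw [e21, LinearMap.det_toLin, Matrix.det_fin_two_of]
  ring

theorem e12_mul_e21 (b : Basis (Fin 2) T V) :
    e12 b * e21 b = Matrix.toLin b b !![1, 0; 0, 0] := by
  rw [e12, e21, Module.End.mul_eq_comp, ← Matrix.toLin_mul]
  congr 1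
  ext i j
  fin_cases i <;> fin_cases j <;> simp [Matrix.mul_apply, Fin.sum_univ_two]

theorem trace_e12_mul_e21 (b : Basis (Fin 2) T V) :
    LinearMap.trace T V (e12 b * e21 b) = 1 := by
  rw [e12_mul_e21, LinearMap.trace_eq_matrix_trace T b, LinearMap.toMatrix_toLin,
    Matrix.trace_fin_two_of, add_zero]

theorem det_e12_mul_e21 (b : Basis (Fin 2) T V) : LinearMap.det (e12 b * e21 b) = 0 := by
  rw [e12_mul_e21, LinearMap.det_toLin, Matrix.det_fin_two_of]
  ring

/-! ### The pair algebra -/

variable (ρ : G →* End T V) (ρM : G →* End T M)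

/-- the span of the pairs `(ρ g, ρM g)`. -/
def pairSpan : Submodule T (End T V × End T M) :=
  Submodule.span T (Set.range fun g : G => (ρ g, ρM g))

theorem pair_mem (g : G) : (ρ g, ρM g) ∈ pairSpan ρ ρM := Submodule.subset_span ⟨g, rfl⟩

theorem mul_mem_pairSpan {w w' : End T V × End T M} (hw : w ∈ pairSpan ρ ρM)
    (hw' : w' ∈ pairSpan ρ ρM) : w * w' ∈ pairSpan ρ ρM := by
  induction hw, hw' using Submodule.span_induction₂ with
  | mem_mem x y hx hy =>
    obtain ⟨g, rfl⟩ := hx
    obtain ⟨h, rfl⟩ := hy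
    have : ((ρ g, ρM g) : End T V × End T M) * (ρ h, ρM h) = (ρ (g * h), ρM (g * h)) := by
      rw [Prod.mk_mul_mk, map_mul, map_mul]
    rw [this]
    exact pair_mem ρ ρM (g * h)
  | zero_left y _ => rw [zero_mul]; exact Submodule.zero_mem _
  | zero_right x _ => rw [mul_zero]; exact Submodule.zero_mem _
  | add_left x y z _ _ _ hx hy => rw [add_mul]; exact Submodule.add_mem _ hx hy
  | add_right x y z _ _ _ hy hz => rw [mul_add]; exact Submodule.add_mem _ hy hz
  | smul_left r x y _ _ h => rw [smul_mul_assoc]; exact Submodule.smul_mem _ r h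
  | smul_right r x y _ _ h => rw [mul_smul_comm]; exact Submodule.smul_mem _ r h

theorem one_mem_pairSpan : (1 : End T V × End T M) ∈ pairSpan ρ ρM := by
  have := pair_mem ρ ρM 1
  rwa [map_one, map_one] at this

/-- the first projection of the pair span is the span of the image of `ρ`. -/
theorem exists_pair_of_span (hspan : Submodule.span T (Set.range ρ) = ⊤) (A : End T V) :
    ∃ Y : End T M, (A, Y) ∈ pairSpan ρ ρM := by
  have hA : A ∈ Submodule.span T (Set.range ρ) := by rw [hspan]; trivial
  induction hA using Submodule.span_induction with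
  | mem x hx =>
    obtain ⟨g, rfl⟩ := hx
    exact ⟨ρM g, pair_mem ρ ρM g⟩
  | zero => exact ⟨0, Submodule.zero_mem _⟩
  | add x y _ _ hx hy =>
    obtain ⟨Y₁, h₁⟩ := hx
    obtain ⟨Y₂, h₂⟩ := hy
    exact ⟨Y₁ + Y₂, by simpa using Submodule.add_mem _ h₁ h₂⟩
  | smul r x _ hx =>
    obtain ⟨Y, h⟩ := hx
    exact ⟨r • Y, by simpa using Submodule.smul_mem _ r h⟩

variable (hquad : ∀ g : G,
  ρM g + LinearMap.det (ρ g) • ρM g⁻¹ = LinearMap.trace T V (ρ g) • (1 : End T M))

include hquad in
/-- the key bilinear identity on the pair span. -/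
theorem key_identity {w w' : End T V × End T M} (hw : w ∈ pairSpan ρ ρM)
    (hw' : w' ∈ pairSpan ρ ρM) :
    LinearMap.trace T V (w.1 * w'.1) • (1 : End T M) - w.2 * w'.2 =
      (LinearMap.trace T V w'.1 • (1 : End T M) - w'.2) *
        (LinearMap.trace T V w.1 • (1 : End T M) - w.2) := by
  induction hw, hw' using Submodule.span_induction₂ with
  | mem_mem x y hx hy =>
    obtain ⟨g, rfl⟩ := hx
    obtain ⟨h, rfl⟩ := hy
    have hg : LinearMap.trace T V (ρ g) • (1 : End T M) - ρM g =
        LinearMap.det (ρ g) • ρM g⁻¹ := by rw [← hquad g]; abel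
    have hh : LinearMap.trace T V (ρ h) • (1 : End T M) - ρM h =
        LinearMap.det (ρ h) • ρM h⁻¹ := by rw [← hquad h]; abel
    have hgh : LinearMap.trace T V (ρ (g * h)) • (1 : End T M) - ρM (g * h) =
        LinearMap.det (ρ (g * h)) • ρM (g * h)⁻¹ := by rw [← hquad (g * h)]; abel
    show LinearMap.trace T V (ρ g * ρ h) • (1 : End T M) - ρM g * ρM h = _
    rw [hg, hh, ← map_mul, ← map_mul, hgh, mul_inv_rev, map_mul ρM, map_mul ρ, map_mul,
      smul_mul_smul_comm, mul_comm (LinearMap.det (ρ h))]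
  | zero_left y _ => simp
  | zero_right x _ => simp
  | add_left x y z _ _ _ hx hy =>
    simp only [Prod.fst_add, Prod.snd_add, add_mul, map_add, add_smul]
    have e1 : (LinearMap.trace T V (x.1 * z.1) • (1 : End T M) +
        LinearMap.trace T V (y.1 * z.1) • (1 : End T M)) - (x.2 * z.2 + y.2 * z.2) =
        (LinearMap.trace T V (x.1 * z.1) • (1 : End T M) - x.2 * z.2) +
        (LinearMap.trace T V (y.1 * z.1) • (1 : End T M) - y.2 * z.2) := by abel
    rw [e1, hx, hy, ← mul_add]
    congr 1
    abel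
  | add_right x y z _ _ _ hy hz =>
    simp only [Prod.fst_add, Prod.snd_add, mul_add, map_add, add_smul]
    have e1 : (LinearMap.trace T V (x.1 * y.1) • (1 : End T M) +
        LinearMap.trace T V (x.1 * z.1) • (1 : End T M)) - (x.2 * y.2 + x.2 * z.2) =
        (LinearMap.trace T V (x.1 * y.1) • (1 : End T M) - x.2 * y.2) +
        (LinearMap.trace T V (x.1 * z.1) • (1 : End T M) - x.2 * z.2) := by abel
    rw [e1, hy, hz, ← add_mul]
    congr 1
    abel
  | smul_left r x y _ _ h =>
    simp only [Prod.smul_fst, Prod.smul_snd, smul_mul_assoc, map_smul, smul_eq_mul, mul_smul]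
    rw [← smul_sub, h, ← smul_sub, mul_smul_comm]
  | smul_right r x y _ _ h =>
    simp only [Prod.smul_fst, Prod.smul_snd, mul_smul_comm, map_smul, smul_eq_mul, mul_smul]
    rw [← smul_sub, h, ← smul_sub, smul_mul_assoc]

include hquad in
/-- **the quadratic relation on the whole pair span** (here `2` is inverted). -/
theorem quadratic_of_mem (h2 : IsUnit (2 : T)) (b : Basis (Fin 2) T V)
    {w : End T V × End T M} (hw : w ∈ pairSpan ρ ρM) :
    w.2 * w.2 - LinearMap.trace T V w.1 • w.2 + LinearMap.det w.1 • (1 : End T M) = 0 := by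
  have h := key_identity ρ ρM hquad hw hw
  have e := end_trace_sq b w.1
  set t := LinearMap.trace T V w.1 with ht
  set Y := w.2 with hY
  have hexp : (t • (1 : End T M) - Y) * (t • (1 : End T M) - Y) =
      (t * t) • (1 : End T M) - t • Y - t • Y + Y * Y := by
    rw [sub_mul, mul_sub, mul_sub, smul_mul_smul_comm, mul_one, smul_mul_assoc, one_mul,
      mul_smul_comm, mul_one]
    abel
  have key : LinearMap.det w.1 • (1 : End T M) + LinearMap.det w.1 • (1 : End T M) =
      (t * t) • (1 : End T M) - (Y * Y + ((t * t) • (1 : End T M) - t • Y - t • Y + Y * Y)) := by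
    have h' : LinearMap.trace T V (w.1 * w.1) • (1 : End T M) =
        Y * Y + (t • (1 : End T M) - Y) * (t • (1 : End T M) - Y) := by
      rw [← h]; abel
    rw [← hexp, ← h', ← add_smul, ← two_mul, ← e, sub_smul]
  have h3 : (2 : T) • (Y * Y - t • Y + LinearMap.det w.1 • (1 : End T M)) = 0 := by
    rw [two_smul]
    calc Y * Y - t • Y + LinearMap.det w.1 • (1 : End T M) +
          (Y * Y - t • Y + LinearMap.det w.1 • (1 : End T M))
        = (Y * Y + Y * Y) - (t • Y + t • Y) + (LinearMap.det w.1 • (1 : End T M) +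
            LinearMap.det w.1 • (1 : End T M)) := by abel
      _ = 0 := by rw [key]; abel
  obtain ⟨u, hu⟩ := h2
  have := congrArg (fun Z => ((u⁻¹ : Tˣ) : T) • Z) h3
  simp only [smul_zero] at this
  rwa [← mul_smul, ← hu, Units.inv_mul, one_smul] at this

include hquad in
/-- an element `(0, X)` of the pair span "anticommutes up to the trace" with the pair span. -/
theorem anticomm_of_mem {X : End T M} (hX : ((0 : End T V), X) ∈ pairSpan ρ ρM)
    {w : End T V × End T M} (hw : w ∈ pairSpan ρ ρM) :
    X * w.2 + w.2 * X = LinearMap.trace T V w.1 • X := by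
  have h := key_identity ρ ρM hquad hX hw
  simp only [zero_mul, map_zero, zero_smul, zero_sub] at h
  have h' : (LinearMap.trace T V w.1 • (1 : End T M) - w.2) * -X =
      -(LinearMap.trace T V w.1 • X) + w.2 * X := by
    rw [mul_neg, sub_mul, smul_mul_assoc, one_mul]
    abel
  rw [h'] at h
  calc X * w.2 + w.2 * X = -(-(X * w.2)) + w.2 * X := by abel
    _ = -(-(LinearMap.trace T V w.1 • X) + w.2 * X) + w.2 * X := by rw [h]
    _ = LinearMap.trace T V w.1 • X := by abel

include hquad in
/-- **the pair span is a graph**: `(0, X) ∈ 𝔄 → X = 0`. -/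
theorem eq_zero_of_mem (h2 : IsUnit (2 : T)) (b : Basis (Fin 2) T V)
    (hspan : Submodule.span T (Set.range ρ) = ⊤) {X : End T M}
    (hX : ((0 : End T V), X) ∈ pairSpan ρ ρM) : X = 0 := by
  obtain ⟨U, hU⟩ := exists_pair_of_span ρ ρM hspan (e12 b)
  obtain ⟨W, hW⟩ := exists_pair_of_span ρ ρM hspan (e21 b)
  have hUW : (e12 b * e21 b, U * W) ∈ pairSpan ρ ρM := by
    have := mul_mem_pairSpan ρ ρM hU hW
    rwa [Prod.mk_mul_mk] at this
  -- `X` anticommutes with `U` and `W`
  have aU : X * U + U * X = 0 := by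
    have := anticomm_of_mem ρ ρM hquad hX hU
    simpa [trace_e12] using this
  have aW : X * W + W * X = 0 := by
    have := anticomm_of_mem ρ ρM hquad hX hW
    simpa [trace_e21] using this
  have aE : X * (U * W) + (U * W) * X = X := by
    have := anticomm_of_mem ρ ρM hquad hX hUW
    simpa [trace_e12_mul_e21] using this
  -- `e = U W` is an idempotent
  have hE : (U * W) * (U * W) = U * W := by
    have := quadratic_of_mem ρ ρM hquad h2 b hUW
    simp only [trace_e12_mul_e21, det_e12_mul_e21, one_smul, zero_smul, add_zero] at this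
    exact sub_eq_zero.mp this
  -- `X` commutes with `e`
  have hXU : X * U = -(U * X) := eq_neg_of_add_eq_zero_left aU
  have hXW : X * W = -(W * X) := eq_neg_of_add_eq_zero_left aW
  have hcomm : X * (U * W) = (U * W) * X := by
    rw [← mul_assoc, hXU, neg_mul, mul_assoc, hXW, mul_neg, neg_neg, mul_assoc]
  -- `X = 2 e X`, hence `e X = 2 e X`, hence `e X = 0`
  have h2e : X = (U * W) * X + (U * W) * X := by
    conv_lhs => rw [← aE, hcomm]
  have heX : (U * W) * X = 0 := by
    have := congrArg (fun Z => (U * W) * Z) h2e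
    simp only [mul_add, ← mul_assoc, hE] at this
    exact left_eq_add.mp this
  rw [h2e, heX, add_zero]

include hquad in
/-- uniqueness of the second component. -/
theorem snd_unique (h2 : IsUnit (2 : T)) (b : Basis (Fin 2) T V)
    (hspan : Submodule.span T (Set.range ρ) = ⊤) {A : End T V} {Y Y' : End T M}
    (hY : (A, Y) ∈ pairSpan ρ ρM) (hY' : (A, Y') ∈ pairSpan ρ ρM) : Y = Y' := by
  have := Submodule.sub_mem _ hY hY'
  rw [Prod.mk_sub_mk, sub_self] at this
  exact sub_eq_zero.mp (eq_zero_of_mem ρ ρM hquad h2 b hspan this)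

/-- **Boston–Lenstra–Ribet** (`2` invertible): the action on `M` factors through `End_T V`. -/
theorem exists_algHom (h2 : IsUnit (2 : T)) (b : Basis (Fin 2) T V)
    (hspan : Submodule.span T (Set.range ρ) = ⊤)
    (hquad : ∀ g : G,
      ρM g + LinearMap.det (ρ g) • ρM g⁻¹ = LinearMap.trace T V (ρ g) • (1 : End T M)) :
    ∃ Φ : End T V →ₐ[T] End T M, ∀ g : G, Φ (ρ g) = ρM g := by
  classical
  choose φ hφ using exists_pair_of_span ρ ρM hspan
  have huniq : ∀ {A : End T V} {Y : End T M}, (A, Y) ∈ pairSpan ρ ρM → φ A = Y := fun hY =>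
    snd_unique ρ ρM hquad h2 b hspan (hφ _) hY
  let Φl : End T V →ₗ[T] End T M :=
    { toFun := φ
      map_add' := fun A B => huniq (by simpa using Submodule.add_mem _ (hφ A) (hφ B))
      map_smul' := fun r A => huniq (by simpa using Submodule.smul_mem _ r (hφ A)) }
  have hone : Φl 1 = 1 := huniq (one_mem_pairSpan ρ ρM)
  have hmul : ∀ A B, Φl (A * B) = Φl A * Φl B := fun A B => by
    have hAB : (A * B, φ A * φ B) ∈ pairSpan ρ ρM := by
      simpa using mul_mem_pairSpan ρ ρM (hφ A) (hφ B)
    exact huniq hAB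
  exact ⟨AlgHom.ofLinearMap Φl hone hmul, fun g => huniq (pair_mem ρ ρM g)⟩

end Fermat.Agent.ES.V32.BLR18
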