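/-
Programme V (S32), chapter V32, helper18: **Morita by hand** — from the Boston–Lenstra–Ribet
homomorphism `Φ : End_T V →ₐ End_T M` of `BLR18` to an equivariant embedding `V ↪ Mⁿ`.

`V` free of rank two over `T` (`2 ∈ Tˣ`), `ρ : G →* End_T V` spanning, `M` a finitely generated FAITHFUL
`T`-module with `ρM : G →* End_T M` satisfying the linearised characteristic equations of `ρ`.
Then there are `n` and an injective `T`-linear `j : V → (Fin n → M)` with
`j (ρ g v) i = ρM g (j v i)`.

`j_m v = Φ (E v) m`, `E v = (w ↦ coord₀ w • v)`; `A ∘ E v = E (A v)` gives the equivariance, and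
`Φ (E v) = 0` forces the coordinates of `v` to kill `Φ (E b₀)`, hence (conjugating by the
transposition) to kill `1 = Φ (E b₀) + Φ (S) Φ (E b₀) Φ (S')`, hence `M`.
-/
import Mathlib
import Fermat.Agent.ES.V32.BLR18

set_option autoImplicit false

open Module

noncomputable section

namespace Fermat.Agent.ES.V32.Embed18

variable {T : Type*} [CommRing T] {V : Type*} [AddCommGroup V] [Module T V]
  {M : Type*} [AddCommGroup M] [Module T M]

/-- the rank one endomorphism `w ↦ coord_k w • v`. -/
def rk (b : Basis (Fin 2) T V) (k : Fin 2) : V →ₗ[T] End T V :=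
  LinearMap.smulRightₗ (b.coord k)

theorem rk_apply (b : Basis (Fin 2) T V) (k : Fin 2) (v w : V) :
    rk b k v w = b.coord k w • v := rfl

theorem mul_rk (b : Basis (Fin 2) T V) (k : Fin 2) (A : End T V) (v : V) :
    A * rk b k v = rk b k (A v) := by
  ext w
  rw [Module.End.mul_apply, rk_apply, rk_apply, map_smul]

theorem rk_mul_rk (b : Basis (Fin 2) T V) (k l : Fin 2) (u v : V) :
    rk b k u * rk b l v = b.coord k v • rk b l u := by
  ext w
  rw [Module.End.mul_apply, rk_apply, rk_apply, LinearMap.smul_apply, rk_apply, map_smul,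
    smul_eq_mul, mul_smul, smul_comm]

/-- `1 = E₀₀ + E₁₀ E₀₀ E₀₁`. -/
theorem one_eq (b : Basis (Fin 2) T V) :
    (1 : End T V) = rk b 0 (b 0) + rk b 0 (b 1) * rk b 0 (b 0) * rk b 1 (b 0) := by
  refine b.ext fun l => ?_
  rw [Module.End.one_apply, LinearMap.add_apply, Module.End.mul_apply, Module.End.mul_apply,
    rk_apply, rk_apply, rk_apply, rk_apply]
  fin_cases l <;> simp

variable {G : Type*} [Group G]

/-- **the embedding `V ↪ Mⁿ`**. -/
theorem exists_embedding (h2 : IsUnit (2 : T)) (b : Basis (Fin 2) T V)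
    (ρ : G →* End T V) (hspan : Submodule.span T (Set.range ρ) = ⊤)
    [Module.Finite T M] (ρM : G →* End T M)
    (hquad : ∀ g : G,
      ρM g + LinearMap.det (ρ g) • ρM g⁻¹ = LinearMap.trace T V (ρ g) • (1 : End T M))
    (hfaith : ∀ t : T, (∀ m : M, t • m = 0) → t = 0) :
    ∃ (n : ℕ) (j : V →ₗ[T] (Fin n → M)), Function.Injective j ∧
      ∀ (g : G) (v : V) (i : Fin n), j (ρ g v) i = ρM g (j v i) := by
  classical
  obtain ⟨Φ, hΦ⟩ := BLR18.exists_algHom ρ ρM h2 b hspan hquad
  obtain ⟨n, s, hs⟩ := Module.Finite.exists_fin (R := T) (M := M)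
  -- the map `j`
  let jm : M → V →ₗ[T] M := fun m =>
    (LinearMap.applyₗ m : End T M →ₗ[T] M).comp (Φ.toLinearMap.comp (rk b 0))
  have hjm : ∀ m v, jm m v = Φ (rk b 0 v) m := fun _ _ => rfl
  let j : V →ₗ[T] (Fin n → M) := LinearMap.pi fun i => jm (s i)
  have hj : ∀ v i, j v i = Φ (rk b 0 v) (s i) := fun _ _ => rfl
  refine ⟨n, j, ?_, ?_⟩
  · -- injectivity
    rw [injective_iff_map_eq_zero]
    intro v hv
    -- `Φ (E v) = 0`
    have h0 : Φ (rk b 0 v) = 0 := by
      apply LinearMap.ext_on hs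
      rintro _ ⟨i, rfl⟩
      rw [← hj v i, hv]
      rfl
    -- the coordinates of `v` kill `Φ (E b₀)`
    have hkill : ∀ k : Fin 2, b.coord k v • Φ (rk b 0 (b 0)) = 0 := by
      intro k
      rw [← map_smul, ← rk_mul_rk, map_mul, h0, mul_zero]
    -- hence they kill `1`
    have hone : ∀ k : Fin 2, b.coord k v • (1 : End T M) = 0 := by
      intro k
      have e1 : (1 : End T M) = Φ (rk b 0 (b 0)) +
          Φ (rk b 0 (b 1)) * Φ (rk b 0 (b 0)) * Φ (rk b 1 (b 0)) := by
        rw [← map_mul, ← map_mul, ← map_add, ← one_eq, map_one]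
      have e2 : b.coord k v • (Φ (rk b 0 (b 1)) * Φ (rk b 0 (b 0)) * Φ (rk b 1 (b 0))) =
          Φ (rk b 0 (b 1)) * (b.coord k v • Φ (rk b 0 (b 0))) * Φ (rk b 1 (b 0)) := by
        rw [mul_smul_comm, smul_mul_assoc]
      rw [e1, smul_add, hkill k, zero_add, e2, hkill k, mul_zero, zero_mul]
    have hc : ∀ k : Fin 2, b.coord k v = 0 := fun k =>
      hfaith _ fun m => by
        have := LinearMap.congr_fun (hone k) m
        simpa using this
    have : b.repr v = 0 := by
      ext k
      exact hc k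
    exact (LinearEquiv.map_eq_zero_iff _).mp this
  · intro g v i
    rw [hj, hj, ← mul_rk, map_mul, hΦ, Module.End.mul_apply]

end Fermat.Agent.ES.V32.Embed18
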