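/-
Programme V (S32), chapter V32, helper18: **faithfulness of a coinvariant quotient over a reduced
ring** (the determinant trick; Mathlib only).

`T` a reduced commutative ring, `P` a finitely generated `T`-module, `R` a commutative `T`-algebra
acting FAITHFULLY on `P` through `ev : R →ₐ[T] End_T P`, `μ : R →ₐ[T] T` an augmentation, and
`N ⊆ (ker μ) P` a `T`-submodule.  Then `P ⧸ N` is a faithful `T`-module: if `s • P ⊆ N` then `s = 0`.

Proof: `P` is a finitely generated `R`-module and `s • P ⊆ (ker μ) • P`, so by Cayley–Hamilton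
(`LinearMap.exists_monic_and_natDegree_eq_and_coeff_mem_pow_and_aeval_eq_zero`) some monic `q` of
degree `n` with lower coefficients in `ker μ` has `q(s) P = 0`; by faithfulness `q(s) = 0` in `R`, and
applying `μ` gives `s ^ n = 0`.
-/
import Mathlib

set_option autoImplicit false
set_option linter.style.haveILetI false

open Module Polynomial

noncomputable section

namespace Fermat.Agent.ES.V32.Faithful18

variable {T : Type*} [CommRing T] {P : Type*} [AddCommGroup P] [Module T P]
  {R : Type*} [CommRing R] [Algebra T R]

/-- the `R`-module structure on `P` given by `ev`. -/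
@[reducible] def modOfEv (ev : R →ₐ[T] End T P) : Module R P :=
  Module.compHom P (ev : R →+* End T P)

theorem smul_def_ofEv (ev : R →ₐ[T] End T P) (r : R) (y : P) :
    (letI := modOfEv ev; r • y) = ev r y := rfl

theorem isScalarTower_ofEv (ev : R →ₐ[T] End T P) :
    letI := modOfEv ev
    IsScalarTower T R P := by
  letI := modOfEv ev
  refine ⟨fun t r y => ?_⟩
  show ev (t • r) y = t • ev r y
  rw [map_smul, LinearMap.smul_apply]

/-- **the determinant trick.** -/
theorem eq_zero_of_smul_mem [IsReduced T] [Module.Finite T P] (ev : R →ₐ[T] End T P)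
    (hev : Function.Injective ev) (μ : R →ₐ[T] T) (N : Submodule T P)
    (hN : N ≤ ⨆ r : RingHom.ker (μ : R →+* T), LinearMap.range (ev (r : R)))
    (s : T) (hs : ∀ y : P, s • y ∈ N) : s = 0 := by
  classical
  letI := modOfEv ev
  haveI := isScalarTower_ofEv ev
  haveI : Module.Finite R P := Module.Finite.of_restrictScalars_finite T R P
  set 𝔟 : Ideal R := RingHom.ker (μ : R →+* T) with h𝔟
  -- `N ⊆ 𝔟 • P`
  have hNb : ∀ y ∈ N, y ∈ (𝔟 • ⊤ : Submodule R P) := by
    intro y hy
    have hy' := hN hy
    refine Submodule.iSup_induction (p := fun r : 𝔟 => LinearMap.range (ev (r : R)))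
      (motive := fun y => y ∈ (𝔟 • ⊤ : Submodule R P)) hy' ?_ (Submodule.zero_mem _)
      (fun x y hx hy => Submodule.add_mem _ hx hy)
    rintro r _ ⟨z, rfl⟩
    exact Submodule.smul_mem_smul r.2 (Submodule.mem_top (x := z))
  -- multiplication by `s` as an `R`-linear endomorphism
  let f : End R P := algebraMap R (End R P) (algebraMap T R s)
  have hf : ∀ y, f y = s • y := by
    intro y
    show (algebraMap T R s) • y = s • y
    rw [algebraMap_smul]
  have hrange : LinearMap.range f ≤ 𝔟 • ⊤ := by
    rintro _ ⟨y, rfl⟩
    rw [hf]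
    exact hNb _ (hs y)
  obtain ⟨q, hq, -, hcoeff, hzero⟩ :=
    LinearMap.exists_monic_and_natDegree_eq_and_coeff_mem_pow_and_aeval_eq_zero R f 𝔟 hrange
  -- `q (s) = 0` in `R`
  have hc : q.eval (algebraMap T R s) = 0 := by
    apply hev
    rw [map_zero]
    refine LinearMap.ext fun y => ?_
    have h1 := LinearMap.congr_fun hzero y
    rw [Polynomial.aeval_algebraMap_apply] at h1
    rw [LinearMap.zero_apply] at h1 ⊢
    exact h1
  -- apply `μ`
  have hμ : (q.map (μ : R →+* T)) = X ^ q.natDegree := by
    ext k
    rw [Polynomial.coeff_map, Polynomial.coeff_X_pow]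
    split_ifs with hk
    · rw [hk, hq.coeff_natDegree, map_one]
    · rcases lt_or_gt_of_ne hk with hlt | hgt
      · have hmem : q.coeff k ∈ 𝔟 := by
          have := hcoeff k
          have hpos : q.natDegree - k ≠ 0 := Nat.sub_ne_zero_of_lt hlt
          exact Ideal.pow_le_self hpos this
        exact (RingHom.mem_ker).mp hmem
      · rw [Polynomial.coeff_eq_zero_of_natDegree_lt hgt, map_zero]
  have h2 : s ^ q.natDegree = 0 := by
    have := congrArg (μ : R →+* T) hc
    rw [map_zero, ← Polynomial.eval_map_apply, hμ, Polynomial.eval_pow, Polynomial.eval_X] at this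
    rw [← this]
    congr 1
    exact (μ.commutes s).symm
  exact IsReduced.eq_zero _ ⟨_, h2⟩

end Fermat.Agent.ES.V32.Faithful18
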