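/-
Programme V, chapter V32 (S32 from the order-level S19), brick `OrderPi18` (helper18).

Finite-power closure of equivariant Hopf orders in function algebras (the `Fin r → M` version of
helper4's `OrderProd4`): for an equivariant Hopf order `H ⊆ M → Ω`, the subalgebra of
`(ι → M) → Ω` generated by the pull-backs of `H` along the evaluations (`ι` finite) is an
equivariant Hopf order for `ι → M` with the componentwise action.
-/
import Mathlib
import Fermat.Agent.ES.V19.OrderHyp4
import Fermat.Agent.ES.V19.OrderSub4

set_option autoImplicit false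

noncomputable section

namespace Fermat.Agent.ES.V32.OrderPi18

open scoped BigOperators
open Fermat.Agent.ES.V19.OrderHyp4 Fermat.Agent.ES.V19.OrderSub4

variable {R Ω G M ι : Type*} [CommRing R] [CommRing Ω] [Algebra R Ω] [Group G]
  [MulSemiringAction G Ω] [AddCommGroup M] [MulAction G M]

/-- The image of `H ⊗ … ⊗ H` in `(ι → M) → Ω`. -/
def piOrder (H : Subalgebra R (M → Ω)) (ι : Type*) : Subalgebra R ((ι → M) → Ω) :=
  ⨆ i : ι, subOrder H (fun x : ι → M => x i)

omit [AddCommGroup M] in
theorem eval_mem_piOrder {H : Subalgebra R (M → Ω)} {h : M → Ω} (hh : h ∈ H) (i : ι) :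
    (fun x : ι → M => h (x i)) ∈ piOrder H ι :=
  (le_iSup (fun i : ι => subOrder H (fun x : ι → M => x i)) i) (mem_subOrder.mpr ⟨h, hh, rfl⟩)

omit [AddCommGroup M] in
theorem piOrder_eq_adjoin (H : Subalgebra R (M → Ω)) :
    piOrder H ι = Algebra.adjoin R
      (⋃ i : ι, (subOrder H (fun x : ι → M => x i) : Set ((ι → M) → Ω))) := by
  rw [Algebra.adjoin_iUnion]
  unfold piOrder
  congr 1
  funext i
  rw [Algebra.adjoin_eq]

omit [AddCommGroup M] in
/-- A finite supremum of module-finite subalgebras is module-finite. -/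
theorem finite_finsetSup {A : Type*} [CommRing A] [Algebra R A] (S : ι → Subalgebra R A)
    (hS : ∀ i, Module.Finite R (S i)) (s : Finset ι) : Module.Finite R ↥(s.sup S) := by
  classical
  induction s using Finset.induction_on with
  | empty =>
    rw [Finset.sup_empty]
    exact Module.Finite.of_surjective (Algebra.linearMap R (⊥ : Subalgebra R A)) (by
      rintro ⟨x, hx⟩
      obtain ⟨r, rfl⟩ := Algebra.mem_bot.mp hx
      exact ⟨r, rfl⟩)
  | insert a s _ ih =>
    rw [Finset.sup_insert]
    have := hS a
    exact Subalgebra.finite_sup _ _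

/-- **(A3-pi).** -/
theorem isEquivOrder_piOrder [Finite ι] {H : Subalgebra R (M → Ω)} (hH : IsEquivOrder G H) :
    IsEquivOrder G (piOrder H ι) where
  finite := by
    have := Fintype.ofFinite ι
    have h1 : ∀ i : ι, Module.Finite R (subOrder H (fun x : ι → M => x i)) := fun i => by
      have := hH.finite
      exact finite_subOrder H _
    have h2 := finite_finsetSup (fun i : ι => subOrder H (fun x : ι → M => x i)) h1 Finset.univ
    rw [Finset.sup_univ_eq_iSup] at h2
    exact h2
  equiv := by
    have hR := smul_algebraMap_of_equiv hH.equiv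
    have h1 : ∀ i : ι, subOrder H (fun x : ι → M => x i) ≤
        equivSubalgebra (M := ι → M) hR := by
      intro i g hg σ x
      obtain ⟨h, hh, rfl⟩ := mem_subOrder.mp hg
      exact hH.equiv h hh σ (x i)
    intro g hg
    exact (iSup_le h1) hg
  sep := by
    intro x y hxy
    obtain ⟨i, hi⟩ := Function.ne_iff.mp hxy
    obtain ⟨h, hh, hne⟩ := hH.sep (x i) (y i) hi
    exact ⟨_, eval_mem_piOrder hh i, hne⟩
  comul := by
    refine comul_of_adjoin (piOrder_eq_adjoin H) ?_
    intro s hs
    obtain ⟨i, hi⟩ := Set.mem_iUnion.mp hs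
    obtain ⟨h, hh, rfl⟩ := mem_subOrder.mp hi
    obtain ⟨n, a, b, ha, hb, hab⟩ := hH.comul h hh
    exact ⟨n, fun j x => a j (x i), fun j x => b j (x i), fun j => eval_mem_piOrder (ha j) i,
      fun j => eval_mem_piOrder (hb j) i, fun x y => hab (x i) (y i)⟩
  antipode := by
    refine antipode_of_adjoin (piOrder_eq_adjoin H) ?_
    intro s hs
    obtain ⟨i, hi⟩ := Set.mem_iUnion.mp hs
    obtain ⟨h, hh, rfl⟩ := mem_subOrder.mp hi
    exact eval_mem_piOrder (hH.antipode h hh) i

end Fermat.Agent.ES.V32.OrderPi18
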