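/-
Programme V (S32), chapter V32, helper18: **the Hecke-coinvariant quotient of a base-changed module**
(generic algebra, Mathlib + `RelDense9.EndCongr`).

`A` a commutative ring, `T` a commutative `A`-algebra, `W` an `A`-module (the Tate module), a family
`θ : B → End_A W` (the Hecke operators) with "eigenvalues" `κ : B → T`.  On `P = T ⊗[A] W`,
`relSub θ κ` is the `T`-submodule generated by the images of `(θ b)_T - κ b`, and
`Mod θ κ = P ⧸ relSub θ κ`.

* every `f ∈ End_A W` commuting with all `θ b` induces `mapMod f` on `Mod θ κ`; a representation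
  `r : G →* End_A W` commuting with `θ` induces `rhoMod : G →* End_T (Mod θ κ)`;
* `(θ b)_T` acts on the quotient as the scalar `κ b` (`mk_theta`), hence a relation
  `f₁ + c • f₂ = θ b` on `W` becomes `mapMod f₁ + c • mapMod f₂ = κ b • 1` (`mapMod_rel`);
* `Mod θ κ` is a finitely generated `T`-module if `W` is a finitely generated `A`-module;
* congruences: `f ≡ 1 mod J` on `W` and `J T ⊆ I` give `mapMod f ≡ 1 mod I`.
-/
import Mathlib
import Fermat.Agent.ES.ALG.RelDense9

set_option autoImplicit false

open TensorProduct Module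

noncomputable section

namespace Fermat.Agent.ES.V32.HeckeMod18

open Fermat.Agent.ES.ALG.RelDense9

variable {A : Type*} [CommRing A] (T : Type*) [CommRing T] [Algebra A T]
  {W : Type*} [AddCommGroup W] [Module A W] {B : Type*}
  (θ : B → End A W) (κ : B → T)

/-- base change of an endomorphism, as a monoid homomorphism. -/
def bc : End A W →* End T (T ⊗[A] W) :=
  (Module.End.baseChangeHom A T W : End A W →ₐ[A] End T (T ⊗[A] W))

theorem bc_apply (f : End A W) : bc T f = f.baseChange T := rfl

theorem bc_tmul (f : End A W) (t : T) (w : W) : bc T f (t ⊗ₜ[A] w) = t ⊗ₜ[A] f w := by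
  rw [bc_apply, LinearMap.baseChange_tmul]

theorem bc_add (f g : End A W) : bc T (f + g) = bc T f + bc T g := by
  rw [bc_apply, bc_apply, bc_apply, LinearMap.baseChange_add]

theorem bc_smul (c : A) (f : End A W) : bc T (c • f) = algebraMap A T c • bc T f := by
  rw [bc_apply, bc_apply, LinearMap.baseChange_smul, algebraMap_smul]

/-- the relation submodule: generated by the images of `(θ b)_T - κ b`. -/
def relSub : Submodule T (T ⊗[A] W) :=
  ⨆ b : B, LinearMap.range (bc T (θ b) - κ b • (1 : End T (T ⊗[A] W)))

/-- the Hecke-coinvariant quotient. -/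
abbrev Mod : Type _ := (T ⊗[A] W) ⧸ relSub T θ κ

variable {T θ κ}

theorem rel_mem (b : B) (y : T ⊗[A] W) : bc T (θ b) y - κ b • y ∈ relSub T θ κ := by
  refine Submodule.mem_iSup_of_mem b ⟨y, ?_⟩
  rw [LinearMap.sub_apply, LinearMap.smul_apply, Module.End.one_apply]

theorem map_relSub_le {f : End A W} (hf : ∀ b, Commute f (θ b)) :
    relSub T θ κ ≤ (relSub T θ κ).comap (bc T f) := by
  refine iSup_le fun b => ?_
  rintro _ ⟨y, rfl⟩
  rw [Submodule.mem_comap]
  have hc : bc T f * bc T (θ b) = bc T (θ b) * bc T f := by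
    rw [← map_mul, ← map_mul, (hf b).eq]
  have e : bc T f ((bc T (θ b) - κ b • (1 : End T (T ⊗[A] W))) y) =
      bc T (θ b) (bc T f y) - κ b • bc T f y := by
    rw [LinearMap.sub_apply, LinearMap.smul_apply, Module.End.one_apply, map_sub, map_smul,
      ← Module.End.mul_apply, hc, Module.End.mul_apply]
  rw [e]
  exact rel_mem b _

/-- the endomorphism of `Mod θ κ` induced by an endomorphism of `W` commuting with `θ`. -/
def mapMod (f : End A W) (hf : ∀ b, Commute f (θ b)) : End T (Mod T θ κ) :=
  (relSub T θ κ).mapQ (relSub T θ κ) (bc T f) (map_relSub_le hf)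

theorem mapMod_mk (f : End A W) (hf : ∀ b, Commute f (θ b)) (y : T ⊗[A] W) :
    mapMod (κ := κ) f hf (Submodule.Quotient.mk y) = Submodule.Quotient.mk (bc T f y) := rfl

theorem mapMod_one : mapMod (θ := θ) (κ := κ) (1 : End A W) (fun _ => Commute.one_left _) = 1 := by
  refine LinearMap.ext fun m => ?_
  obtain ⟨y, rfl⟩ := Submodule.Quotient.mk_surjective _ m
  rw [mapMod_mk, map_one, Module.End.one_apply, Module.End.one_apply]

theorem mapMod_mul (f g : End A W) (hf : ∀ b, Commute f (θ b)) (hg : ∀ b, Commute g (θ b)) :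
    mapMod (κ := κ) (f * g) (fun b => (hf b).mul_left (hg b)) =
      mapMod f hf * mapMod g hg := by
  refine LinearMap.ext fun m => ?_
  obtain ⟨y, rfl⟩ := Submodule.Quotient.mk_surjective _ m
  rw [Module.End.mul_apply, mapMod_mk, mapMod_mk, mapMod_mk, map_mul, Module.End.mul_apply]

/-- the induced representation. -/
def rhoMod {G : Type*} [Group G] (r : G →* End A W) (hr : ∀ g b, Commute (r g) (θ b)) :
    G →* End T (Mod T θ κ) where
  toFun g := mapMod (r g) (hr g)
  map_one' := by
    have := mapMod_one (T := T) (θ := θ) (κ := κ)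
    convert this using 2
    exact map_one r
  map_mul' g h := by
    have := mapMod_mul (κ := κ) (r g) (r h) (hr g) (hr h)
    convert this using 2
    exact map_mul r g h

theorem rhoMod_apply {G : Type*} [Group G] (r : G →* End A W) (hr : ∀ g b, Commute (r g) (θ b))
    (g : G) : rhoMod (κ := κ) r hr g = mapMod (r g) (hr g) := rfl

/-- `(θ b)_T` acts on the quotient as `κ b`. -/
theorem mk_theta (b : B) (y : T ⊗[A] W) :
    (Submodule.Quotient.mk (bc T (θ b) y) : Mod T θ κ) = κ b • Submodule.Quotient.mk y := by
  rw [← Submodule.Quotient.mk_smul, Submodule.Quotient.eq]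
  exact rel_mem b y

/-- a relation `f₁ + c • f₂ = θ b` on `W` becomes `mapMod f₁ + c • mapMod f₂ = κ b • 1`. -/
theorem mapMod_rel (f₁ f₂ : End A W) (hf₁ : ∀ b, Commute f₁ (θ b)) (hf₂ : ∀ b, Commute f₂ (θ b))
    (c : A) (b : B) (h : f₁ + c • f₂ = θ b) :
    mapMod (κ := κ) f₁ hf₁ + algebraMap A T c • mapMod f₂ hf₂ = κ b • (1 : End T (Mod T θ κ)) := by
  refine LinearMap.ext fun m => ?_
  obtain ⟨y, rfl⟩ := Submodule.Quotient.mk_surjective _ m
  rw [LinearMap.add_apply, LinearMap.smul_apply, LinearMap.smul_apply, Module.End.one_apply,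
    mapMod_mk, mapMod_mk, ← mk_theta, ← h, bc_add, bc_smul, LinearMap.add_apply,
    LinearMap.smul_apply, Submodule.Quotient.mk_add, Submodule.Quotient.mk_smul]

/-- finiteness. -/
theorem finite_mod [Module.Finite A W] : Module.Finite T (Mod T θ κ) :=
  Module.Finite.quotient T _

/-- congruences pass to the quotient. -/
theorem endCongr_mapMod {J : Ideal A} {I : Ideal T} (hJI : J.map (algebraMap A T) ≤ I)
    (f : End A W) (hf : ∀ b, Commute f (θ b)) (h : EndCongr J f 1) :
    EndCongr I (mapMod (κ := κ) f hf) 1 := by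
  -- first on `P`
  have hP : ∀ y : T ⊗[A] W, bc T f y - y ∈ I • (⊤ : Submodule T (T ⊗[A] W)) := by
    intro y
    induction y using TensorProduct.induction_on with
    | zero => rw [map_zero, sub_zero]; exact Submodule.zero_mem _
    | tmul t w =>
      rw [bc_tmul, ← TensorProduct.tmul_sub]
      have hw : f w - w ∈ J • (⊤ : Submodule A W) := by simpa using h w
      refine Submodule.smul_induction_on hw (fun a ha x _ => ?_) (fun x y hx hy => ?_)
      · have e : t ⊗ₜ[A] (a • x) = algebraMap A T a • (t ⊗ₜ[A] x) := by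
          rw [TensorProduct.tmul_smul, algebraMap_smul]
        rw [e]
        exact Submodule.smul_mem_smul (hJI (Ideal.mem_map_of_mem _ ha)) Submodule.mem_top
      · rw [TensorProduct.tmul_add]
        exact Submodule.add_mem _ hx hy
    | add x y hx hy =>
      have e : bc T f (x + y) - (x + y) = (bc T f x - x) + (bc T f y - y) := by
        rw [map_add]; abel
      rw [e]
      exact Submodule.add_mem _ hx hy
  intro m
  obtain ⟨y, rfl⟩ := Submodule.Quotient.mk_surjective _ m
  rw [mapMod_mk, Module.End.one_apply, ← Submodule.Quotient.mk_sub]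
  have := hP y
  refine Submodule.smul_induction_on this (fun a ha x _ => ?_) (fun x y hx hy => ?_)
  · rw [Submodule.Quotient.mk_smul]
    exact Submodule.smul_mem_smul ha Submodule.mem_top
  · rw [Submodule.Quotient.mk_add]
    exact Submodule.add_mem _ hx hy

end Fermat.Agent.ES.V32.HeckeMod18
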