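/-
Programme V (S32), chapter V32, helper18: **from Frobenius lifts to all of `G`** (abstract density
argument; Lucas + congruences, with `RelDense9`, `TraceInv12`, `Lucas15` of main).

`V` free of rank two over `T` with `ρ : G →* End_T V`; `M` a `T`-module with `ρM : G →* End_T M`,
separated for a family of ideals `I n`.  If the linearised characteristic equation
`ρM φ + det (ρ φ) • ρM φ⁻¹ = tr (ρ φ) • 1` holds for `φ` in a set `Φ` whose powers are dense for both
actions (modulo every `I n`), then it holds for every `g`.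
-/
import Mathlib
import Fermat.Agent.ES.ALG.RelDense9
import Fermat.Agent.ES.ALG31.TraceInv12
import Fermat.Agent.ES.ALG31.Lucas15

set_option autoImplicit false

open Module

noncomputable section

namespace Fermat.Agent.ES.V32.QuadAll18

open Fermat.Agent.ES.ALG.RelDense9 Fermat.Agent.ES.ALG31.TraceInv12 Fermat.Agent.ES.ALG31.Lucas15

variable {T : Type*} [CommRing T] {G : Type*} [Group G]
  {V : Type*} [AddCommGroup V] [Module T V]
  {M : Type*} [AddCommGroup M] [Module T M]

/-- the determinant character of a representation. -/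
def detChar (ρ : G →* End T V) : G →* Tˣ := (LinearMap.det.comp ρ).toHomUnits

theorem detChar_apply (ρ : G →* End T V) (g : G) :
    ((detChar ρ g : Tˣ) : T) = LinearMap.det (ρ g) := rfl

/-- an endomorphism of a free module of rank two congruent to `1` has determinant congruent to `1`. -/
theorem det_sub_one_mem (b : Basis (Fin 2) T V) {I : Ideal T} {f : End T V}
    (h : EndCongr I f 1) : LinearMap.det f - 1 ∈ I := by
  have hent : ∀ i j : Fin 2, LinearMap.toMatrix b b f i j - (if i = j then 1 else 0) ∈ I := by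
    intro i j
    have h1 := repr_mem_of_mem_smul_top b I (h (b j)) i
    rw [Module.End.one_apply, map_sub, Finsupp.sub_apply, Basis.repr_self,
      Finsupp.single_apply] at h1
    rw [LinearMap.toMatrix_apply]
    convert h1 using 3
    exact eq_comm
  rw [← LinearMap.det_toMatrix b, Matrix.det_fin_two]
  have h00 := hent 0 0
  have h11 := hent 1 1
  have h01 := hent 0 1
  have h10 := hent 1 0
  simp only [if_true, Fin.isValue, Fin.reduceEq, if_false, sub_zero] at h00 h11 h01 h10
  set a := LinearMap.toMatrix b b f 0 0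
  set d := LinearMap.toMatrix b b f 1 1
  set u := LinearMap.toMatrix b b f 0 1
  set v := LinearMap.toMatrix b b f 1 0
  have e : a * d - u * v - 1 = (a - 1) * d + (d - 1) - u * v := by ring
  rw [e]
  exact I.sub_mem (I.add_mem (I.mul_mem_right _ h00) h11) (I.mul_mem_right _ h01)

/-- **Lucas on `M`**: `F + δ F' = a` implies `F^j + δ^j F'^j = V_j(a, δ)`. -/
theorem lucas_eq {F F' : End T M} (hFF' : F * F' = 1) (hF'F : F' * F = 1) {δ a : T}
    (h : F + δ • F' = a • (1 : End T M)) (j : ℕ) :
    F ^ j + δ ^ j • F' ^ j = lucasV a δ j • (1 : End T M) := by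
  induction j using Nat.twoStepInduction with
  | zero => rw [pow_zero, pow_zero, pow_zero, one_smul, lucasV_zero, two_smul]
  | one => rw [pow_one, pow_one, pow_one, lucasV_one, h]
  | more j h0 h1 =>
    rw [lucas_rec hFF' hF'F, h, h1, h0, lucasV_add_two, smul_mul_smul_comm, mul_one, smul_smul,
      ← sub_smul]

variable [Module.Free T V] [Module.Finite T V]

/-- **the relation for every `g`.** -/
theorem quad_all [Nontrivial T] (hV : Module.finrank T V = 2) (ρ : G →* End T V)
    (ρM : G →* End T M) (I : ℕ → Ideal T)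
    (hsep : ∀ m : M, (∀ n, m ∈ I n • (⊤ : Submodule T M)) → m = 0)
    (Φ : Set G)
    (hΦ : ∀ φ ∈ Φ,
      ρM φ + LinearMap.det (ρ φ) • ρM φ⁻¹ = LinearMap.trace T V (ρ φ) • (1 : End T M))
    (hdense : ∀ (n : ℕ) (g : G), ∃ φ ∈ Φ, ∃ j : ℕ,
      EndCongr (I n) (ρ (g⁻¹ * φ ^ j)) 1 ∧ EndCongr (I n) (ρM (g⁻¹ * φ ^ j)) 1) (g : G) :
    ρM g + LinearMap.det (ρ g) • ρM g⁻¹ = LinearMap.trace T V (ρ g) • (1 : End T M) := by
  classical
  set b := Module.finBasisOfFinrankEq T V hV with hb
  refine LinearMap.ext fun m => sub_eq_zero.mp (hsep _ fun n => ?_)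
  obtain ⟨φ, hφ, j, h1, h2⟩ := hdense n g
  set h : G := g⁻¹ * φ ^ j with hh
  have hgh : g * h = φ ^ j := by rw [hh, mul_inv_cancel_left]
  -- the relation for `φ ^ j`
  have hpow : W ρM (detChar ρ) (φ ^ j) = LinearMap.trace T V (ρ (φ ^ j)) • (1 : End T M) := by
    rw [W_pow, detChar_apply, map_pow ρ, trace_pow_end hV]
    exact lucas_eq (by rw [← map_mul, mul_inv_cancel, map_one])
      (by rw [← map_mul, inv_mul_cancel, map_one]) (hΦ φ hφ) j
  -- `W (g h) ≡ W g`
  have hW : EndCongr (I n) (W ρM (detChar ρ) (g * h)) (W ρM (detChar ρ) g) :=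
    W_congr ρM (detChar ρ) g h h2 (by rw [detChar_apply]; exact det_sub_one_mem b h1)
  -- `tr ρ (g h) ≡ tr ρ g`
  have htr : LinearMap.trace T V (ρ (g * h)) - LinearMap.trace T V (ρ g) ∈ I n := by
    have := h1.mul_left (ρ g)
    rw [mul_one, ← map_mul] at this
    exact trace_sub_mem_of_endCongr this
  have e : (ρM g + LinearMap.det (ρ g) • ρM g⁻¹) m -
      (LinearMap.trace T V (ρ g) • (1 : End T M)) m =
      (LinearMap.trace T V (ρ (g * h)) - LinearMap.trace T V (ρ g)) • m -
        (W ρM (detChar ρ) (g * h) m - W ρM (detChar ρ) g m) := by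
    have hWg : W ρM (detChar ρ) g = ρM g + LinearMap.det (ρ g) • ρM g⁻¹ := rfl
    rw [hgh, hpow, hWg]
    simp only [LinearMap.smul_apply, Module.End.one_apply, sub_smul, LinearMap.add_apply]
    abel
  rw [e]
  exact Submodule.sub_mem _ (Submodule.smul_mem_smul htr Submodule.mem_top) (hW m)

end Fermat.Agent.ES.V32.QuadAll18
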