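/-
helper19 — Programme V, S32 chapter (spine of helper18), file 3a: pure algebra.

`isReduced_of_adjoin_range`: let `𝕋` be a reduced commutative ring, integral over `ℤ`; `𝒪` a domain
of characteristic `0`; `T` a commutative `𝒪`-algebra, finite and flat over `𝒪`, generated over `𝒪`
by the image of a ring homomorphism `π : 𝕋 →+* T`.  Then `T` is reduced.

Proof.  (1) `exists_separable_int`: every `t : 𝕋` is killed by some `f ∈ ℤ[X]` whose image in `ℚ[X]`
is separable (a nonzero `f` of minimal degree killing `t` is squarefree over `ℚ`: if `g² ∣ f` then,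
after clearing denominators, `(G H)(t)² = 0` with `deg (G H) < deg f`).
(2) `formallyUnramified_of_adjoin`: a commutative algebra over a field generated by elements killed by
separable polynomials has `Ω = 0`.
(3) `K ⊗[𝒪] T` (`K = Frac 𝒪`) is a finite `K`-algebra generated by the `1 ⊗ π t`, hence reduced
(`Algebra.FormallyUnramified.isReduced_of_field`), and `T` embeds into it by flatness.
-/
import Mathlib

set_option autoImplicit false

noncomputable section

namespace Fermat.Agent.ES.V32.TReducedCore19

open Polynomial TensorProduct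

/-! ### (1) separable integer polynomials killing elements of a reduced integral ring -/

theorem exists_separable_int {𝕋 : Type*} [CommRing 𝕋] [IsReduced 𝕋] (t : 𝕋)
    (ht : IsIntegral ℤ t) :
    ∃ f : ℤ[X], aeval t f = 0 ∧ (f.map (Int.castRingHom ℚ)).Separable := by
  classical
  -- the set of degrees of nonzero polynomials killing `t`
  have hne : ∃ n : ℕ, ∃ f : ℤ[X], f ≠ 0 ∧ aeval t f = 0 ∧ f.natDegree = n := by
    obtain ⟨p, hp, hpt⟩ := ht
    exact ⟨p.natDegree, p, hp.ne_zero, by simpa [aeval_def] using hpt, rfl⟩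
  obtain ⟨f, hf0, hft, hfn⟩ := Nat.find_spec hne
  have hmin : ∀ q : ℤ[X], q ≠ 0 → aeval t q = 0 → f.natDegree ≤ q.natDegree := by
    intro q hq0 hqt
    rw [hfn]
    exact Nat.find_min' hne ⟨q, hq0, hqt, rfl⟩
  refine ⟨f, hft, ?_⟩
  rw [PerfectField.separable_iff_squarefree]
  have hinj : Function.Injective (Int.castRingHom ℚ) := Int.cast_injective
  set P := f.map (Int.castRingHom ℚ) with hP
  have hP0 : P ≠ 0 := fun h => hf0 (Polynomial.map_injective _ hinj (by simpa using h))
  intro g hg
  obtain ⟨h, hh⟩ := hg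
  have hg0 : g ≠ 0 := by
    rintro rfl
    exact hP0 (by rw [hh]; simp)
  have hh0 : h ≠ 0 := by
    rintro rfl
    exact hP0 (by rw [hh]; simp)
  by_contra hgu
  have hgdeg : 1 ≤ g.natDegree := by
    by_contra hlt
    have h0 : g.natDegree = 0 := by omega
    obtain ⟨c, rfl⟩ := Polynomial.natDegree_eq_zero.mp h0
    have hc : c ≠ 0 := fun h => hg0 (by rw [h, map_zero])
    exact hgu (Polynomial.isUnit_C.mpr (isUnit_iff_ne_zero.mpr hc))
  -- clear denominators
  obtain ⟨a, ha, hG⟩ := IsLocalization.integerNormalization_spec (nonZeroDivisors ℤ) g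
  obtain ⟨b, hb, hH⟩ := IsLocalization.integerNormalization_spec (nonZeroDivisors ℤ) h
  set G := IsLocalization.integerNormalization (nonZeroDivisors ℤ) g with hGdef
  set H := IsLocalization.integerNormalization (nonZeroDivisors ℤ) h with hHdef
  have ha0 : a ≠ 0 := nonZeroDivisors.ne_zero ha
  have hb0 : b ≠ 0 := nonZeroDivisors.ne_zero hb
  have hamap : (algebraMap ℤ ℚ) = Int.castRingHom ℚ := rfl
  rw [hamap] at hG hH
  have haQ : (a : ℚ) ≠ 0 := by exact_mod_cast ha0
  have hbQ : (b : ℚ) ≠ 0 := by exact_mod_cast hb0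
  have hGdeg : G.natDegree = g.natDegree := by
    rw [← Polynomial.natDegree_map_eq_of_injective hinj G, hG]
    rw [zsmul_eq_mul, ← Polynomial.C_eq_intCast, Polynomial.natDegree_C_mul]
    exact_mod_cast haQ
  have hHdeg : H.natDegree = h.natDegree := by
    rw [← Polynomial.natDegree_map_eq_of_injective hinj H, hH]
    rw [zsmul_eq_mul, ← Polynomial.C_eq_intCast, Polynomial.natDegree_C_mul]
    exact_mod_cast hbQ
  have hG0 : G ≠ 0 := by
    intro h0
    have : a • g = 0 := by rw [← hG, h0, Polynomial.map_zero]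
    rw [zsmul_eq_mul, ← Polynomial.C_eq_intCast] at this
    rcases mul_eq_zero.mp this with h1 | h1
    · exact haQ (by simpa using h1)
    · exact hg0 h1
  have hH0 : H ≠ 0 := by
    intro h0
    have : b • h = 0 := by rw [← hH, h0, Polynomial.map_zero]
    rw [zsmul_eq_mul, ← Polynomial.C_eq_intCast] at this
    rcases mul_eq_zero.mp this with h1 | h1
    · exact hbQ (by simpa using h1)
    · exact hh0 h1
  -- G * G * H = (a * a * b) • f
  have hrel : G * G * H = C (a * a * b) * f := by
    apply Polynomial.map_injective _ hinj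
    rw [Polynomial.map_mul, Polynomial.map_mul, hG, hH, Polynomial.map_mul, Polynomial.map_C,
      ← hP, hh]
    simp only [zsmul_eq_mul, eq_intCast, ← Polynomial.C_eq_intCast]
    push_cast
    simp only [map_mul]
    ring
  have hkill : aeval t (G * H) = 0 := by
    have h1 : aeval t (G * G * H) = 0 := by
      rw [hrel, map_mul, hft, mul_zero]
    have h2 : (aeval t (G * H)) ^ 2 = 0 := by
      have : (aeval t (G * H)) ^ 2 = aeval t (G * G * H) * aeval t H := by
        simp only [map_mul]
        ring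
      rw [this, h1, zero_mul]
    exact pow_eq_zero_iff (two_ne_zero) |>.mp h2
  have hdeg := hmin (G * H) (mul_ne_zero hG0 hH0) hkill
  have hfdeg : f.natDegree = g.natDegree + g.natDegree + h.natDegree := by
    rw [← Polynomial.natDegree_map_eq_of_injective hinj f, ← hP, hh,
      Polynomial.natDegree_mul (mul_ne_zero hg0 hg0) hh0, Polynomial.natDegree_mul hg0 hg0]
  rw [Polynomial.natDegree_mul hG0 hH0, hGdeg, hHdeg, hfdeg] at hdeg
  omega

/-! ### (2) algebras generated by separable elements are formally unramified -/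

theorem formallyUnramified_of_adjoin {K A : Type*} [Field K] [CommRing A] [Algebra K A]
    (G : Set A) (hG : Algebra.adjoin K G = ⊤)
    (hsep : ∀ x ∈ G, ∃ f : K[X], f.Separable ∧ aeval x f = 0) :
    Algebra.FormallyUnramified K A := by
  rw [Algebra.formallyUnramified_iff]
  set D := KaehlerDifferential.D K A with hD
  have hgen : ∀ x ∈ G, D x = 0 := by
    intro x hx
    obtain ⟨f, hf, hfx⟩ := hsep x hx
    obtain ⟨a, b, hab⟩ := hf
    have h1 : aeval x (derivative f) • D x = 0 := by
      rw [← Derivation.map_aeval, hfx, map_zero]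
    have h2 : aeval x b * aeval x (derivative f) = 1 := by
      have := congrArg (aeval x) hab
      simpa [hfx] using this
    calc D x = (aeval x b * aeval x (derivative f)) • D x := by rw [h2, one_smul]
      _ = aeval x b • (aeval x (derivative f) • D x) := mul_smul _ _ _
      _ = 0 := by rw [h1, smul_zero]
  have hall : ∀ y : A, D y = 0 := by
    intro y
    have hy : y ∈ Algebra.adjoin K G := by rw [hG]; exact Algebra.mem_top
    induction hy using Algebra.adjoin_induction with
    | mem x hx => exact hgen x hx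
    | algebraMap r => exact D.map_algebraMap r
    | add x y _ _ hx hy => rw [map_add, hx, hy, add_zero]
    | mul x y _ _ hx hy => rw [Derivation.leibniz, hx, hy, smul_zero, smul_zero, add_zero]
  have htop : (⊤ : Submodule A (Ω[A⁄K])) = ⊥ := by
    rw [← KaehlerDifferential.span_range_derivation K A, Submodule.span_eq_bot]
    rintro _ ⟨y, rfl⟩
    exact hall y
  refine ⟨fun x y => ?_⟩
  have hx : x ∈ (⊥ : Submodule A (Ω[A⁄K])) := htop ▸ Submodule.mem_top
  have hy : y ∈ (⊥ : Submodule A (Ω[A⁄K])) := htop ▸ Submodule.mem_top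
  rw [(Submodule.mem_bot A).mp hx, (Submodule.mem_bot A).mp hy]

/-! ### (3) the theorem -/

theorem isReduced_of_adjoin_range {𝕋 𝒪 T : Type*} [CommRing 𝕋] [IsReduced 𝕋]
    [Algebra.IsIntegral ℤ 𝕋] [CommRing 𝒪] [IsDomain 𝒪] [CharZero 𝒪] [CommRing T] [Algebra 𝒪 T]
    [Module.Finite 𝒪 T] [Module.Flat 𝒪 T] (π : 𝕋 →+* T)
    (hπ : Algebra.adjoin 𝒪 (Set.range π) = ⊤) : IsReduced T := by
  set K := FractionRing 𝒪 with hK
  have : CharZero K := charZero_of_injective_algebraMap (IsFractionRing.injective 𝒪 K)
  set A := K ⊗[𝒪] T with hA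
  -- `T` embeds into `A`
  have hinj : Function.Injective (Algebra.TensorProduct.includeRight : T →ₐ[𝒪] K ⊗[𝒪] T) :=
    Algebra.TensorProduct.includeRight_injective (IsFractionRing.injective 𝒪 K)
  -- generators
  set ψ : 𝕋 →+* A :=
    ((Algebra.TensorProduct.includeRight : T →ₐ[𝒪] K ⊗[𝒪] T) : T →+* K ⊗[𝒪] T).comp π with hψ
  have hone : ∀ x : T, ((1 : K) ⊗ₜ[𝒪] x : K ⊗[𝒪] T) ∈ Algebra.adjoin K (Set.range ψ) := by
    intro x
    have hx : x ∈ Algebra.adjoin 𝒪 (Set.range π) := by rw [hπ]; exact Algebra.mem_top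
    induction hx using Algebra.adjoin_induction with
    | mem x hx =>
      obtain ⟨t, rfl⟩ := hx
      exact Algebra.subset_adjoin ⟨t, rfl⟩
    | algebraMap r =>
      have : ((1 : K) ⊗ₜ[𝒪] (algebraMap 𝒪 T r) : K ⊗[𝒪] T)
          = algebraMap K (K ⊗[𝒪] T) (algebraMap 𝒪 K r) := by
        rw [Algebra.TensorProduct.algebraMap_apply, Algebra.algebraMap_eq_smul_one r,
          ← TensorProduct.smul_tmul, Algebra.algebraMap_eq_smul_one r]
        rfl
      rw [this]
      exact Subalgebra.algebraMap_mem _ _
    | add x y _ _ hx hy =>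
      rw [TensorProduct.tmul_add]
      exact Subalgebra.add_mem _ hx hy
    | mul x y _ _ hx hy =>
      have : ((1 : K) ⊗ₜ[𝒪] (x * y) : K ⊗[𝒪] T) = ((1 : K) ⊗ₜ[𝒪] x) * ((1 : K) ⊗ₜ[𝒪] y) := by
        rw [Algebra.TensorProduct.tmul_mul_tmul, one_mul]
      rw [this]
      exact Subalgebra.mul_mem _ hx hy
  have hgen : Algebra.adjoin K (Set.range ψ) = ⊤ := by
    rw [eq_top_iff]
    rintro z -
    induction z using TensorProduct.induction_on with
    | zero => exact Subalgebra.zero_mem _
    | add x y hx hy => exact Subalgebra.add_mem _ hx hy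
    | tmul k x =>
      have h1 : (k ⊗ₜ[𝒪] x : K ⊗[𝒪] T) = k • ((1 : K) ⊗ₜ[𝒪] x) := by
        rw [TensorProduct.smul_tmul', smul_eq_mul, mul_one]
      rw [h1]
      exact Subalgebra.smul_mem _ (hone x) k
  have hsep : ∀ x ∈ Set.range ψ, ∃ f : K[X], f.Separable ∧ aeval x f = 0 := by
    rintro _ ⟨t, rfl⟩
    obtain ⟨f, hft, hfs⟩ := exists_separable_int t (Algebra.IsIntegral.isIntegral t)
    refine ⟨f.map (Int.castRingHom K), ?_, ?_⟩
    · have h1 := hfs.map (f := algebraMap ℚ K)
      rw [Polynomial.map_map] at h1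
      have h2 : (algebraMap ℚ K).comp (Int.castRingHom ℚ) = Int.castRingHom K :=
        RingHom.ext_int _ _
      rwa [h2] at h1
    · rw [aeval_def, Polynomial.eval₂_map]
      have h2 : (algebraMap K A).comp (Int.castRingHom K) = ψ.comp (Int.castRingHom 𝕋) :=
        RingHom.ext_int _ _
      rw [h2, ← Polynomial.hom_eval₂]
      have h3 : eval₂ (Int.castRingHom 𝕋) t f = 0 := by
        have := hft
        rwa [aeval_def] at this
      rw [h3, map_zero]
  have : Algebra.FormallyUnramified K A := formallyUnramified_of_adjoin _ hgen hsep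
  have : IsReduced A := Algebra.FormallyUnramified.isReduced_of_field K A
  exact isReduced_of_injective (Algebra.TensorProduct.includeRight : T →ₐ[𝒪] K ⊗[𝒪] T) hinj

end Fermat.Agent.ES.V32.TReducedCore19
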