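/-
helper19 — Programme V, S32 chapter (spine of helper18), file 3b:
the coefficient ring `T` of a Hecke–Galois datum is REDUCED (characteristic-0 coefficients).

Inputs: `PET/ReducedFinal17.isReduced_heckeAlgebra` (the anemic Hecke algebra is reduced, `S ⊇ {q ∣ N}`),
`Fermat.Agent.S22.result` (it is a finite `ℤ`-module), `H.adjoin_range_π`, and the pure-algebra core
`TReducedCore19.isReduced_of_adjoin_range`.
-/
import Fermat.Agent.ES.V32.TReducedCore19
import Fermat.Agent.ES.PET.ReducedFinal17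
import Fermat.Agent.S22
import Fermat.Prelude.Def_CuspForm_HeckeGaloisRepDatum

set_option autoImplicit false

namespace Fermat.Agent.ES.V32.TReduced19

open Fermat.Agent.ES.V32.TReducedCore19

/-- The coefficient ring of a Hecke–Galois datum of level `N` away from `S ⊇ {q ∣ N}` over a
characteristic-zero `𝒪` is reduced. -/
theorem isReduced_T {N : ℕ} [NeZero N] {S : Set ℕ}
    (hNS : ∀ q : ℕ, q.Prime → q ∣ N → q ∈ S)
    {𝒪 : Type} [CommRing 𝒪] [IsDomain 𝒪] [IsDiscreteValuationRing 𝒪]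
    [IsAdicComplete (IsLocalRing.maximalIdeal 𝒪) 𝒪] [CharZero 𝒪]
    {θ : CuspForm.heckeAlgebra N 2 S →+* IsLocalRing.ResidueField 𝒪}
    {T : Type} [CommRing T] [IsLocalRing T] [IsNoetherianRing T]
    [IsAdicComplete (IsLocalRing.maximalIdeal T) T] [Algebra 𝒪 T] [IsLocalHom (algebraMap 𝒪 T)]
    [Module.Finite 𝒪 T] [Module.Free 𝒪 T]
    (H : CuspForm.HeckeGaloisRepDatum N S 𝒪 θ T) : IsReduced T := by
  have h1 : IsReduced (CuspForm.heckeAlgebra N 2 S) :=
    Fermat.Agent.ES.PET.ReducedFinal17.isReduced_heckeAlgebra N S hNS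
  have h2 : Module.Finite ℤ (CuspForm.heckeAlgebra N 2 S) := Fermat.Agent.S22.result N 2 S
  have h3 : Algebra.IsIntegral ℤ (CuspForm.heckeAlgebra N 2 S) := Algebra.IsIntegral.of_finite _ _
  exact isReduced_of_adjoin_range H.π H.adjoin_range_π

/-- The same for a finite set `S` (the shape of S32/S33). -/
theorem isReduced_T_finset {N : ℕ} [NeZero N] {S : Finset ℕ}
    (hNS : ∀ q : ℕ, q.Prime → q ∣ N → q ∈ S)
    {𝒪 : Type} [CommRing 𝒪] [IsDomain 𝒪] [IsDiscreteValuationRing 𝒪]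
    [IsAdicComplete (IsLocalRing.maximalIdeal 𝒪) 𝒪] [CharZero 𝒪]
    {θ : CuspForm.heckeAlgebra N 2 (↑S : Set ℕ) →+* IsLocalRing.ResidueField 𝒪}
    {T : Type} [CommRing T] [IsLocalRing T] [IsNoetherianRing T]
    [IsAdicComplete (IsLocalRing.maximalIdeal T) T] [Algebra 𝒪 T] [IsLocalHom (algebraMap 𝒪 T)]
    [Module.Finite 𝒪 T] [Module.Free 𝒪 T]
    (H : CuspForm.HeckeGaloisRepDatum N (↑S : Set ℕ) 𝒪 θ T) : IsReduced T :=
  isReduced_T (S := (↑S : Set ℕ)) (fun q hq hqN => Finset.mem_coe.mpr (hNS q hq hqN)) H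

end Fermat.Agent.ES.V32.TReduced19
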