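/-
Programme V (S32), chapter V32, helper18: **the instantiation** — for a Hecke–Galois datum `H` of level
`N` (`p ∈ S ⊇ {q ∣ N}`, `p` odd, `char 𝒪 = 0`) the representation `H.ρ.V` embeds, `G_ℚ`- and
`T`-equivariantly, into a finite power of the Hecke-coinvariant quotient
`ModJ = (T ⊗_{ℤ_p} T_p J₀(N)) / ⟨(1 ⊗ b − κ b ⊗ 1)⟩` of the base-changed Tate module.

Inputs from main: `HeckeTate26.evJ` (faithful action of `ℤ_p ⊗ 𝕋` on the Tate module, commuting with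
`rhoT`), `TateJZero13.rhoT_frobenius` (Eichler–Shimura), `rhoT_continuous`, Chebotarev in generator form
(`ChebQbar23`), `TraceKill26.galoisRepAdic_span_range_eq_top`; from this chapter: `HeckeMod18`,
`QuadAll18`, `Faithful18`, `Embed18` (hence `BLR18`) and `TReduced19`.
-/
import Mathlib
import Fermat.Prelude.Def_CuspForm_HeckeGaloisRepDatum
import Fermat.Agent.ES.K.HeckeTate26
import Fermat.Agent.ES.K.TraceKill26
import Fermat.Agent.ES.GAL.ChebQbar23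
import Fermat.Agent.ES.J.S30Final8
import Fermat.Agent.ES.ALG31.Lucas15
import Fermat.Agent.ES.V32.HeckeMod18
import Fermat.Agent.ES.V32.QuadAll18
import Fermat.Agent.ES.V32.Faithful18
import Fermat.Agent.ES.V32.Embed18
import Fermat.Agent.ES.V32.TReduced19

set_option autoImplicit false
set_option linter.unusedSectionVars false
set_option linter.style.haveILetI false
set_option synthInstance.maxHeartbeats 400000

open TensorProduct Module Polynomial CuspForm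

noncomputable section

namespace Fermat.Agent.ES.V32.Inst18

open Fermat.Agent.ES.K.HeckeTate26 Fermat.Agent.ES.J.TateJZero13 Fermat.Agent.ES.ALG.RelDense9
  Fermat.Agent.ES.V32.HeckeMod18

/-- the absolute Galois group of `ℚ`. -/
abbrev GQ : Type := AlgebraicClosure ℚ ≃ₐ[ℚ] AlgebraicClosure ℚ

variable {p : ℕ} [hp : Fact p.Prime] {N : ℕ} [NeZero N] {S : Finset ℕ}
  {𝒪 : Type} [CommRing 𝒪] [IsDomain 𝒪] [IsDiscreteValuationRing 𝒪]
  [IsAdicComplete (IsLocalRing.maximalIdeal 𝒪) 𝒪]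
  {θ : CuspForm.heckeAlgebra N 2 (↑S : Set ℕ) →+* IsLocalRing.ResidueField 𝒪}
  {T : Type} [CommRing T] [IsLocalRing T] [IsNoetherianRing T]
  [IsAdicComplete (IsLocalRing.maximalIdeal T) T] [Algebra 𝒪 T] [IsLocalHom (algebraMap 𝒪 T)]
  [Module.Finite 𝒪 T] [Module.Free 𝒪 T] [Algebra ℤ_[p] T]

/-- `S ⊇ {q ∣ N}` as a statement about the coerced set. -/
theorem hS_coe (hNS : ∀ q : ℕ, q.Prime → q ∣ N → q ∈ S) :
    ∀ q : ℕ, q.Prime → q ∣ N → q ∈ (↑S : Set ℕ) := fun q hq hqN => by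
  exact_mod_cast hNS q hq hqN

/-- the eigenvalue map `κ (a ⊗ t) = a · π t`. -/
def kap (H : HeckeGaloisRepDatum N (↑S : Set ℕ) 𝒪 θ T) : Bp p N (↑S : Set ℕ) →ₐ[ℤ_[p]] T :=
  Algebra.TensorProduct.lift (Algebra.ofId ℤ_[p] T) (H.π.toIntAlgHom) (fun _ _ => Commute.all _ _)

theorem kap_tmul (H : HeckeGaloisRepDatum N (↑S : Set ℕ) 𝒪 θ T) (a : ℤ_[p])
    (t : heckeAlgebra N 2 (↑S : Set ℕ)) :
    kap H (a ⊗ₜ[ℤ] t) = algebraMap ℤ_[p] T a * H.π t := by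
  rw [kap, Algebra.TensorProduct.lift_tmul]
  rfl

variable (p) (hNS : ∀ q : ℕ, q.Prime → q ∣ N → q ∈ S)
  (H : HeckeGaloisRepDatum N (↑S : Set ℕ) 𝒪 θ T)

/-- the Hecke operators on the Tate module, indexed by `ℤ_p ⊗ 𝕋`. -/
def thetaJ (b : Bp p N (↑S : Set ℕ)) : End ℤ_[p] (TJ p N) :=
  evJ (p := p) (↑S : Set ℕ) (hS_coe hNS) b

/-- the Hecke-coinvariant quotient of `T ⊗ T_p J₀(N)`. -/
abbrev ModJ : Type _ := Mod T (thetaJ p hNS) (fun b => kap (p := p) H b)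

theorem commute_rhoT_thetaJ (g : GQ) (b : Bp p N (↑S : Set ℕ)) :
    Commute (rhoT p N g) (thetaJ p hNS b) :=
  commute_rhoT_evJ (p := p) (↑S : Set ℕ) (hS_coe hNS) g b

/-- the Galois action on `ModJ`. -/
def rhoJ : GQ →* End T (ModJ p hNS H) :=
  rhoMod (rhoT p N) (commute_rhoT_thetaJ p hNS)

theorem finite_modJ : Module.Finite T (ModJ p hNS H) := by
  have := (finite_free (Fermat.Agent.ES.J.S30Final8.k1 p N)).1
  exact finite_mod

/-! ### The Frobenius relation on `ModJ` -/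

variable (N S) in
/-- the Frobenius lifts at the good primes. -/
def frobSet : Set GQ :=
  {φ | ∃ (ℓ : ℕ) (_ : ℓ.Prime) (_ : ¬ ℓ ∣ N) (_ : ℓ ∉ (↑S : Set ℕ)) (A : ValuationSubring (AlgebraicClosure ℚ)),
    A.LiesOverPrime ℓ ∧ A.IsFrobeniusAt φ ℓ}

omit hp in
/-- from the quadratic relation `F² − X F + δ = 0` to the linearised form `F + δ F⁻¹ = X`. -/
theorem lin_of_quad {A : Type*} [CommRing A] {W : Type*} [AddCommGroup W] [Module A W]
    {F F' X : End A W} (hFF' : F * F' = 1) {δ : A}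
    (h : F * F - X * F + δ • (1 : End A W) = 0) : F + δ • F' = X := by
  have := congrArg (fun Y => Y * F') h
  simp only [add_mul, sub_mul, smul_mul_assoc, mul_assoc, hFF', mul_one, one_mul,
    zero_mul] at this
  rw [sub_add_eq_add_sub, sub_eq_zero] at this
  exact this

theorem frob_rel (hpS : p ∈ S) (φ : GQ) (hφ : φ ∈ frobSet N S) :
    rhoJ p hNS H φ + LinearMap.det (H.ρ.ρ φ) • rhoJ p hNS H φ⁻¹ =
      LinearMap.trace T H.ρ.V (H.ρ.ρ φ) • (1 : End T (ModJ p hNS H)) := by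
  obtain ⟨ℓ, hℓ, hℓN, hℓS, A, hA, hFr⟩ := hφ
  have hne : ℓ ≠ p := fun h => hℓS (by rw [h]; exact_mod_cast hpS)
  obtain ⟨htr, hdet⟩ := Fermat.Agent.ES.ALG31.Lucas15.trace_det_of_charpoly H.ρ.finrank_eq
    (H.ρ.ρ φ) (H.charpoly_frob ℓ hℓ hℓN hℓS A hA φ hFr)
  -- Eichler–Shimura in the linearised form
  have h1 := rhoT_frobenius (p := p) (N := N) hℓ hℓN hne hA hFr
  have hFF' : rhoT p N φ * rhoT p N φ⁻¹ = 1 := by rw [← map_mul, mul_inv_cancel, map_one]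
  have h2 : rhoT p N φ + (ℓ : ℤ_[p]) • rhoT p N φ⁻¹ =
      thetaJ p hNS ((1 : ℤ_[p]) ⊗ₜ[ℤ] heckeAlgebra.T hℓ hℓN hℓS) := by
    rw [thetaJ, evJ_T]
    exact lin_of_quad hFF' h1
  have h3 := mapMod_rel (κ := fun b => kap (p := p) H b) (rhoT p N φ) (rhoT p N φ⁻¹)
    (commute_rhoT_thetaJ p hNS φ) (commute_rhoT_thetaJ p hNS φ⁻¹) (ℓ : ℤ_[p]) _ h2
  rw [map_natCast, kap_tmul, map_one, one_mul] at h3
  rw [htr, hdet]
  exact h3

/-! ### Density of the Frobenius powers -/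

theorem map_span_pow_le (hpT : (p : T) ∈ IsLocalRing.maximalIdeal T) (n : ℕ) :
    (Ideal.span {(p : ℤ_[p]) ^ n}).map (algebraMap ℤ_[p] T) ≤ IsLocalRing.maximalIdeal T ^ n := by
  rw [Ideal.map_span, Ideal.span_le]
  rintro _ ⟨x, hx, rfl⟩
  rw [Set.mem_singleton_iff] at hx
  rw [hx, map_pow, map_natCast]
  exact Ideal.pow_mem_pow hpT n

theorem dense (hpT : (p : T) ∈ IsLocalRing.maximalIdeal T) (n : ℕ) (g : GQ) :
    ∃ φ ∈ frobSet N S, ∃ j : ℕ,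
      EndCongr (IsLocalRing.maximalIdeal T ^ n) (H.ρ.ρ (g⁻¹ * φ ^ j)) 1 ∧
      EndCongr (IsLocalRing.maximalIdeal T ^ n) (rhoJ p hNS H (g⁻¹ * φ ^ j)) 1 := by
  obtain ⟨L₁, hL₁, h1⟩ := H.ρ.isAdicContinuous n
  obtain ⟨L₂, hL₂, h2⟩ := rhoT_continuous (p := p) (N := N) (Fermat.Agent.ES.J.S30Final8.k1 p N) n
  have := hL₁
  have := hL₂
  obtain ⟨ℓ, A, φ, j, hℓ, hℓS, hA, hφ, hj⟩ :=
    Fermat.Agent.ES.GAL.ChebQbar23.exists_frobenius_inv_mul_pow_fixes (L₁ ⊔ L₂) g S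
  have hℓS' : ℓ ∉ (↑S : Set ℕ) := by simpa using hℓS
  have hℓN : ¬ ℓ ∣ N := fun hdvd => hℓS (hNS ℓ hℓ hdvd)
  refine ⟨φ, ⟨ℓ, hℓ, hℓN, hℓS', A, hA, hφ⟩, j, ?_, ?_⟩
  · intro v
    rw [Module.End.one_apply]
    exact h1 _ (fun x hx => hj x (le_sup_left (a := L₁) (b := L₂) hx)) v
  · refine endCongr_mapMod (map_span_pow_le p hpT n) _ (commute_rhoT_thetaJ p hNS _) ?_
    intro v
    rw [Module.End.one_apply]
    obtain ⟨y, hy⟩ := h2 _ (fun x hx => hj x (le_sup_right (a := L₁) (b := L₂) hx)) v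
    rw [hy]
    exact Submodule.smul_mem_smul (Ideal.mem_span_singleton_self _) Submodule.mem_top

/-! ### The relation for every `g` -/

theorem sep_modJ (m : ModJ p hNS H)
    (hm : ∀ n : ℕ, m ∈ (IsLocalRing.maximalIdeal T ^ n) • (⊤ : Submodule T (ModJ p hNS H))) :
    m = 0 := by
  have := finite_modJ p hNS H
  have h := Ideal.iInf_pow_smul_eq_bot_of_isLocalRing (R := T) (M := ModJ p hNS H)
    (IsLocalRing.maximalIdeal T) Ideal.IsPrime.ne_top'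
  have hmem : m ∈ (⨅ i : ℕ, (IsLocalRing.maximalIdeal T ^ i) • ⊤ : Submodule T (ModJ p hNS H)) :=
    (Submodule.mem_iInf _).mpr hm
  rw [h] at hmem
  exact (Submodule.mem_bot T).mp hmem

theorem quad_all_J (hpT : (p : T) ∈ IsLocalRing.maximalIdeal T) (hpS : p ∈ S) (g : GQ) :
    rhoJ p hNS H g + LinearMap.det (H.ρ.ρ g) • rhoJ p hNS H g⁻¹ =
      LinearMap.trace T H.ρ.V (H.ρ.ρ g) • (1 : End T (ModJ p hNS H)) :=
  Fermat.Agent.ES.V32.QuadAll18.quad_all H.ρ.finrank_eq H.ρ.ρ (rhoJ p hNS H)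
    (fun n => IsLocalRing.maximalIdeal T ^ n) (sep_modJ p hNS H) (frobSet N S)
    (frob_rel p hNS H hpS) (dense p hNS H hpT) g

/-! ### Faithfulness of `ModJ` -/

omit [IsLocalRing T] [IsNoetherianRing T] [IsAdicComplete (IsLocalRing.maximalIdeal T) T]
  [IsLocalHom (algebraMap 𝒪 T)] [Module.Finite 𝒪 T] in
/-- `T` is flat over `ℤ_p` (it is torsion-free: `𝒪` has characteristic zero and `T` is `𝒪`-free). -/
theorem flat_T [CharZero 𝒪] : Module.Flat ℤ_[p] T := by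
  rw [Module.Flat.flat_iff_torsion_eq_bot_of_isBezout, eq_bot_iff]
  rintro x ⟨⟨a, ha⟩, hax⟩
  have ha0 : a ≠ 0 := nonZeroDivisors.ne_zero ha
  have hax' : algebraMap ℤ_[p] T a * x = 0 := by
    have : a • x = 0 := hax
    rwa [Algebra.smul_def] at this
  have hspec := PadicInt.unitCoeff_spec ha0
  rw [hspec, map_mul, map_pow, map_natCast, mul_assoc] at hax'
  have hu : IsUnit (algebraMap ℤ_[p] T ((PadicInt.unitCoeff ha0 : ℤ_[p]ˣ) : ℤ_[p])) :=
    (PadicInt.unitCoeff ha0).isUnit.map _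
  have h1 : (p : T) ^ a.valuation * x = 0 := hu.mul_right_eq_zero.mp hax'
  have h2 : ((p : 𝒪) ^ a.valuation) • x = 0 := by
    rw [Algebra.smul_def, map_pow, map_natCast]
    exact h1
  rcases smul_eq_zero.mp h2 with h | h
  · exact absurd h (pow_ne_zero _ (Nat.cast_ne_zero.mpr hp.out.ne_zero))
  · exact (Submodule.mem_bot _).mpr h

/-- the action of `T ⊗ (ℤ_p ⊗ 𝕋)` on `T ⊗ T_p J₀(N)`. -/
def evTJ : T ⊗[ℤ_[p]] Bp p N (↑S : Set ℕ) →ₐ[T] End T (T ⊗[ℤ_[p]] TJ p N) :=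
  Fermat.Agent.ES.K.BaseChangeFaith26.evB (evJ (p := p) (↑S : Set ℕ) (hS_coe hNS))
    (TensorProduct.mk ℤ_[p] T (TJ p N) 1) (TensorProduct.isBaseChange ℤ_[p] (TJ p N) T)

theorem evTJ_injective [CharZero 𝒪] : Function.Injective (evTJ (T := T) p hNS) := by
  have := (finite_free (Fermat.Agent.ES.J.S30Final8.k1 p N)).1
  have : Module.FinitePresentation ℤ_[p] (TJ p N) := Module.finitePresentation_of_finite ℤ_[p] _
  have : Module.Flat ℤ_[p] T := flat_T (𝒪 := 𝒪) p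
  exact Fermat.Agent.ES.K.BaseChangeFaith26.evB_injective _ _ _
    (evJ_injective (p := p) (↑S : Set ℕ) (hS_coe hNS))

theorem evTJ_one_tmul (b : Bp p N (↑S : Set ℕ)) :
    evTJ (T := T) p hNS ((1 : T) ⊗ₜ[ℤ_[p]] b) = bc T (thetaJ p hNS b) := by
  refine (TensorProduct.isBaseChange ℤ_[p] (TJ p N) T).algHom_ext _ _ fun l => ?_
  rw [evTJ, Fermat.Agent.ES.K.BaseChangeFaith26.evB_tmul_apply, one_smul]
  show (1 : T) ⊗ₜ[ℤ_[p]] _ = bc T (thetaJ p hNS b) ((1 : T) ⊗ₜ[ℤ_[p]] l)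
  rw [bc_tmul]
  rfl

theorem evTJ_tmul_one (t : T) :
    evTJ (T := T) p hNS (t ⊗ₜ[ℤ_[p]] (1 : Bp p N (↑S : Set ℕ))) =
      t • (1 : End T (T ⊗[ℤ_[p]] TJ p N)) := by
  have h := (evTJ (T := T) p hNS).commutes t
  rw [Algebra.algebraMap_eq_smul_one (A := End T (T ⊗[ℤ_[p]] TJ p N))] at h
  exact h

/-- the augmentation `t ⊗ b ↦ t · κ b`. -/
def muJ : T ⊗[ℤ_[p]] Bp p N (↑S : Set ℕ) →ₐ[T] T :=
  Algebra.TensorProduct.lift (AlgHom.id T T) (kap (p := p) H) (fun _ _ => Commute.all _ _)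

theorem muJ_tmul (t : T) (b : Bp p N (↑S : Set ℕ)) :
    muJ p H (t ⊗ₜ[ℤ_[p]] b) = t * kap (p := p) H b := by
  rw [muJ, Algebra.TensorProduct.lift_tmul]
  rfl

/-- **`ModJ` is a faithful `T`-module.** -/
theorem faithful_modJ [CharZero 𝒪] (s : T) (hs : ∀ m : ModJ p hNS H, s • m = 0) : s = 0 := by
  have hred : IsReduced T := Fermat.Agent.ES.V32.TReduced19.isReduced_T_finset hNS H
  have := (finite_free (Fermat.Agent.ES.J.S30Final8.k1 p N)).1
  have hfinP : Module.Finite T (T ⊗[ℤ_[p]] TJ p N) := Module.Finite.base_change ℤ_[p] T (TJ p N)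
  refine Fermat.Agent.ES.V32.Faithful18.eq_zero_of_smul_mem
    (R := T ⊗[ℤ_[p]] Bp p N (↑S : Set ℕ)) (evTJ (T := T) p hNS)
    (evTJ_injective (𝒪 := 𝒪) p hNS) (muJ p H)
    (relSub T (thetaJ p hNS) (fun b => kap (p := p) H b)) ?_ s ?_
  · refine iSup_le fun b => ?_
    have hr : ((1 : T) ⊗ₜ[ℤ_[p]] b - kap (p := p) H b ⊗ₜ[ℤ_[p]] (1 : Bp p N (↑S : Set ℕ)) :
        T ⊗[ℤ_[p]] Bp p N (↑S : Set ℕ)) ∈ RingHom.ker (muJ p H : _ →+* T) := by
      rw [RingHom.mem_ker]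
      show muJ p H _ = 0
      have e := (muJ p H).toRingHom.map_sub ((1 : T) ⊗ₜ[ℤ_[p]] b)
        (kap (p := p) H b ⊗ₜ[ℤ_[p]] (1 : Bp p N (↑S : Set ℕ)))
      refine e.trans ?_
      show muJ p H _ - muJ p H _ = 0
      rw [muJ_tmul, muJ_tmul, one_mul, map_one, mul_one, sub_self]
    refine le_iSup_of_le ⟨_, hr⟩ (le_of_eq ?_)
    show LinearMap.range (bc T (thetaJ p hNS b) - kap (p := p) H b • 1) =
      LinearMap.range (evTJ (T := T) p hNS _)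
    have e := RingHom.map_sub (β := End T (T ⊗[ℤ_[p]] TJ p N)) (evTJ (T := T) p hNS).toRingHom
      ((1 : T) ⊗ₜ[ℤ_[p]] b) (kap (p := p) H b ⊗ₜ[ℤ_[p]] (1 : Bp p N (↑S : Set ℕ)))
    have e' : evTJ (T := T) p hNS ((1 : T) ⊗ₜ[ℤ_[p]] b -
        kap (p := p) H b ⊗ₜ[ℤ_[p]] (1 : Bp p N (↑S : Set ℕ))) =
        bc T (thetaJ p hNS b) - kap (p := p) H b • 1 := by
      refine e.trans ?_
      show evTJ (T := T) p hNS _ - evTJ (T := T) p hNS _ = _
      rw [evTJ_one_tmul, evTJ_tmul_one]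
    rw [e']
  · intro y
    have := hs (Submodule.Quotient.mk y)
    rw [← Submodule.Quotient.mk_smul, Submodule.Quotient.mk_eq_zero] at this
    exact this

/-! ### The embedding -/

omit [IsNoetherianRing T] [IsAdicComplete (IsLocalRing.maximalIdeal T) T] [Algebra ℤ_[p] T] in
/-- `2` is a unit of `T` (`p` is odd and lies in the maximal ideal). -/
theorem isUnit_two (hp2 : p ≠ 2) (hpT : (p : T) ∈ IsLocalRing.maximalIdeal T) :
    IsUnit (2 : T) := by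
  by_contra h
  have h2m : (2 : T) ∈ IsLocalRing.maximalIdeal T := (IsLocalRing.mem_maximalIdeal _).mpr h
  obtain ⟨k, hk⟩ := (hp.out.eq_two_or_odd').resolve_left hp2
  have e : (1 : T) = (p : T) - 2 * (k : T) := by
    rw [hk]; push_cast; ring
  have : (1 : T) ∈ IsLocalRing.maximalIdeal T := by
    rw [e]
    exact Ideal.sub_mem _ hpT (Ideal.mul_mem_right _ _ h2m)
  exact (Ideal.ne_top_iff_one _).mp Ideal.IsPrime.ne_top' this

/-- **the equivariant embedding of `H.ρ.V` into a power of `ModJ`.** -/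
theorem exists_embedding_datum [CharZero 𝒪] (hp2 : p ≠ 2)
    (hpT : (p : T) ∈ IsLocalRing.maximalIdeal T) (hpS : p ∈ S) :
    ∃ (n : ℕ) (j : H.ρ.V →ₗ[T] (Fin n → ModJ p hNS H)), Function.Injective j ∧
      ∀ (g : GQ) (v : H.ρ.V) (i : Fin n), j (H.ρ.ρ g v) i = rhoJ p hNS H g (j v i) := by
  have := finite_modJ p hNS H
  exact Fermat.Agent.ES.V32.Embed18.exists_embedding (isUnit_two p hp2 hpT)
    (Module.finBasisOfFinrankEq T H.ρ.V H.ρ.finrank_eq) H.ρ.ρ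
    (Fermat.Agent.ES.K.TraceKill26.galoisRepAdic_span_range_eq_top H.ρ H.residual_absIrr)
    (rhoJ p hNS H) (quad_all_J p hNS H hpT hpS) (faithful_modJ (𝒪 := 𝒪) p hNS H)

end Fermat.Agent.ES.V32.Inst18
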