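/-
Programme V, chapter S32 (route of helper18, BLR), file `SubQuotCore19` (helper19).

Abstract Artin–Rees chain (Mathlib only).  Data: a ring map `A → T` with `T` noetherian, an
`A`-module `W`, a finite `T`-module `M` which is a quotient `q : T ⊗[A] W ↠ M`, a finite `T`-module
`V` with an injection `j : V ↪ Mⁿ`, an ideal `I` of `T` of finite index and `c : A` which is
`I`-adically topologically nilpotent in `T`.  Then `V ⧸ I V` is an (additive) subquotient of a finite
power `W^R`, killed by a power of `c` on the source, naturally in compatible endomorphisms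
`(gW, gM, gV)`.

Proof.  Artin–Rees (`Ideal.exists_pow_inf_eq_pow_smul`) gives `K` with
`I ^ K • Mⁿ ⊓ j(V) ≤ j(I V)`.  As `T ⧸ I ^ K` is finite (`Ideal.finite_quotient_pow`) choose
representatives `t₁ … t_s` of all classes.  `Phi y i = ∑ l, q (t l ⊗ y (i, l))` is onto `Mⁿ` modulo
`I ^ K`.  `X₀ := {y | ∃ v, Phi y - j v ∈ I ^ K • Mⁿ}` and `f₀ y := [v]`, well defined by Artin–Rees
and injectivity of `j`.
-/
import Mathlib

set_option autoImplicit false

noncomputable section

namespace Fermat.Agent.ES.V32.SubQuotCore19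

open TensorProduct Module

section PiSmul

variable {T : Type*} [CommRing T] {M : Type*} [AddCommGroup M] [Module T M] {n : ℕ}

/-- a tuple all of whose coordinates lie in `J • M` lies in `J • Mⁿ`. -/
theorem mem_smul_top_pi (J : Ideal T) (x : Fin n → M)
    (hx : ∀ i, x i ∈ J • (⊤ : Submodule T M)) : x ∈ J • (⊤ : Submodule T (Fin n → M)) := by
  classical
  have h1 : x = ∑ i, LinearMap.single T (fun _ : Fin n => M) i (x i) := by
    ext k
    simp [Finset.sum_apply, Pi.single_apply]
  rw [h1]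
  refine Submodule.sum_mem _ fun i _ => ?_
  have h2 : J • (⊤ : Submodule T M) ≤
      (J • (⊤ : Submodule T (Fin n → M))).comap (LinearMap.single T (fun _ : Fin n => M) i) :=
    Submodule.smul_top_le_comap_smul_top J _
  exact h2 (hx i)

end PiSmul

section Core

variable {A : Type*} [CommRing A] {T : Type*} [CommRing T] [Algebra A T]
  {W : Type*} [AddCommGroup W] [Module A W]
  {M : Type*} [AddCommGroup M] [Module T M]
  (q : T ⊗[A] W →ₗ[T] M)
  {V : Type*} [AddCommGroup V] [Module T V]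
  {n s : ℕ} (j : V →ₗ[T] (Fin n → M)) (I : Ideal T) (K : ℕ) (t : Fin s → T)

/-- one coordinate of the comparison map: `w ↦ ∑ l, q (t l ⊗ w l)`. -/
def phi1 : (Fin s → W) →+ M where
  toFun w := ∑ l, q (t l ⊗ₜ[A] w l)
  map_zero' := by simp
  map_add' w w' := by simp [tmul_add, Finset.sum_add_distrib]

theorem phi1_apply (w : Fin s → W) : phi1 q t w = ∑ l, q (t l ⊗ₜ[A] w l) := rfl

/-- the comparison map `W^(n s) → Mⁿ`. -/
def Phi : (Fin (n * s) → W) →+ (Fin n → M) where
  toFun y i := phi1 q t fun l => y (finProdFinEquiv (i, l))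
  map_zero' := by
    ext i
    exact map_zero (phi1 q t)
  map_add' y y' := by
    ext i
    exact map_add (phi1 q t) (fun l : Fin s => y (finProdFinEquiv (i, l)))
      (fun l : Fin s => y' (finProdFinEquiv (i, l)))

theorem Phi_apply (y : Fin (n * s) → W) (i : Fin n) :
    Phi (n := n) q t y i = ∑ l, q (t l ⊗ₜ[A] y (finProdFinEquiv (i, l))) := rfl

/-- every element of `M = q (T ⊗ W)` is congruent modulo `I ^ K` to some `∑ l, q (t l ⊗ w l)` as soon
as the `t l` represent all classes modulo `I ^ K`. -/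
theorem exists_phi1_sub_mem (hq : Function.Surjective q) (ht : ∀ a : T, ∃ l, a - t l ∈ I ^ K)
    (z : M) : ∃ w : Fin s → W, phi1 q t w - z ∈ I ^ K • (⊤ : Submodule T M) := by
  classical
  obtain ⟨p, rfl⟩ := hq z
  induction p using TensorProduct.induction_on with
  | zero => exact ⟨0, by simp⟩
  | tmul a w0 =>
    obtain ⟨l, hl⟩ := ht a
    refine ⟨Pi.single l w0, ?_⟩
    have h1 : phi1 q t (Pi.single l w0) = q (t l ⊗ₜ[A] w0) := by
      rw [phi1_apply, Finset.sum_eq_single l]
      · simp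
      · intro b _ hb
        simp [Pi.single_eq_of_ne hb]
      · intro h; exact absurd (Finset.mem_univ l) h
    have h2 : q (t l ⊗ₜ[A] w0) - q (a ⊗ₜ[A] w0) = (t l - a) • q (1 ⊗ₜ[A] w0) := by
      rw [← map_sub, ← sub_tmul, ← map_smul, smul_tmul', smul_eq_mul, mul_one]
    rw [h1, h2]
    refine Submodule.smul_mem_smul ?_ Submodule.mem_top
    have : t l - a = -(a - t l) := by ring
    rw [this]
    exact (I ^ K).neg_mem hl
  | add p p' hp hp' =>
    obtain ⟨w, hw⟩ := hp
    obtain ⟨w', hw'⟩ := hp'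
    refine ⟨w + w', ?_⟩
    have : phi1 q t (w + w') - q (p + p') = (phi1 q t w - q p) + (phi1 q t w' - q p') := by
      rw [map_add, map_add]; abel
    rw [this]
    exact Submodule.add_mem _ hw hw'

/-- `Phi` is onto `Mⁿ` modulo `I ^ K`. -/
theorem exists_Phi_sub_mem (hq : Function.Surjective q) (ht : ∀ a : T, ∃ l, a - t l ∈ I ^ K)
    (x : Fin n → M) :
    ∃ y : Fin (n * s) → W, Phi (n := n) q t y - x ∈ I ^ K • (⊤ : Submodule T (Fin n → M)) := by
  choose w hw using fun i => exists_phi1_sub_mem q I K t hq ht (x i)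
  refine ⟨fun r => w (finProdFinEquiv.symm r).1 (finProdFinEquiv.symm r).2, ?_⟩
  refine mem_smul_top_pi _ _ fun i => ?_
  have : (Phi (n := n) q t (fun r => w (finProdFinEquiv.symm r).1 (finProdFinEquiv.symm r).2) - x) i
      = phi1 q t (w i) - x i := by
    rw [Pi.sub_apply, Phi_apply, phi1_apply]
    simp
  rw [this]
  exact hw i

/-- multiples by an element of `A` which lands in `I ^ K` are sent by `Phi` into `I ^ K • Mⁿ`. -/
theorem Phi_smul_mem (a : A) (ha : algebraMap A T a ∈ I ^ K) (y : Fin (n * s) → W) :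
    Phi (n := n) q t (a • y) ∈ I ^ K • (⊤ : Submodule T (Fin n → M)) := by
  refine mem_smul_top_pi _ _ fun i => ?_
  rw [Phi_apply]
  refine Submodule.sum_mem _ fun l _ => ?_
  have h1 : q (t l ⊗ₜ[A] (a • y) (finProdFinEquiv (i, l))) =
      algebraMap A T a • q (t l ⊗ₜ[A] y (finProdFinEquiv (i, l))) := by
    rw [Pi.smul_apply, ← map_smul, smul_tmul', ← smul_tmul, smul_eq_mul, Algebra.smul_def]
  rw [h1]
  exact Submodule.smul_mem_smul ha Submodule.mem_top

/-- naturality of `Phi`. -/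
theorem Phi_comp (gW : W →ₗ[A] W) (gM : M →ₗ[T] M)
    (hq : ∀ y, q (gW.baseChange T y) = gM (q y)) (y : Fin (n * s) → W) :
    Phi (n := n) q t (fun r => gW (y r)) = gM.compLeft (Fin n) (Phi (n := n) q t y) := by
  ext i
  rw [LinearMap.compLeft_apply, Function.comp_apply, Phi_apply, Phi_apply, map_sum]
  refine Finset.sum_congr rfl fun l _ => ?_
  rw [← hq, LinearMap.baseChange_tmul]

/-- the source subgroup. -/
def X0 : AddSubgroup (Fin (n * s) → W) where
  carrier := {y | ∃ v : V, Phi (n := n) q t y - j v ∈ I ^ K • (⊤ : Submodule T (Fin n → M))}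
  zero_mem' := ⟨0, by simp⟩
  add_mem' := by
    rintro y y' ⟨v, hv⟩ ⟨v', hv'⟩
    refine ⟨v + v', ?_⟩
    have : Phi (n := n) q t (y + y') - j (v + v') =
        (Phi (n := n) q t y - j v) + (Phi (n := n) q t y' - j v') := by
      rw [map_add, map_add]; abel
    rw [this]
    exact Submodule.add_mem _ hv hv'
  neg_mem' := by
    rintro y ⟨v, hv⟩
    refine ⟨-v, ?_⟩
    have : Phi (n := n) q t (-y) - j (-v) = -(Phi (n := n) q t y - j v) := by
      rw [map_neg, map_neg]; abel
    rw [this]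
    exact Submodule.neg_mem _ hv

theorem mem_X0 (y : Fin (n * s) → W) :
    y ∈ X0 q j I K t ↔
      ∃ v : V, Phi (n := n) q t y - j v ∈ I ^ K • (⊤ : Submodule T (Fin n → M)) := Iff.rfl

/-- well-definedness of the class of `v`. -/
theorem mk_eq_mk_of_mem (hj : Function.Injective j)
    (hAR : I ^ K • (⊤ : Submodule T (Fin n → M)) ⊓ LinearMap.range j ≤
      Submodule.map j (I • (⊤ : Submodule T V)))
    {y : Fin (n * s) → W} {v v' : V}
    (hv : Phi (n := n) q t y - j v ∈ I ^ K • (⊤ : Submodule T (Fin n → M)))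
    (hv' : Phi (n := n) q t y - j v' ∈ I ^ K • (⊤ : Submodule T (Fin n → M))) :
    (Submodule.Quotient.mk v : V ⧸ I • (⊤ : Submodule T V)) = Submodule.Quotient.mk v' := by
  rw [Submodule.Quotient.eq]
  have h1 : j (v - v') ∈ I ^ K • (⊤ : Submodule T (Fin n → M)) ⊓ LinearMap.range j := by
    refine ⟨?_, LinearMap.mem_range_self _ _⟩
    have : j (v - v') = (Phi (n := n) q t y - j v') - (Phi (n := n) q t y - j v) := by
      rw [map_sub]; abel
    rw [this]
    exact Submodule.sub_mem _ hv' hv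
  obtain ⟨u, hu, hju⟩ := hAR h1
  rwa [← hj hju]

/-- the map to `V ⧸ I V`. -/
def f0 (hj : Function.Injective j)
    (hAR : I ^ K • (⊤ : Submodule T (Fin n → M)) ⊓ LinearMap.range j ≤
      Submodule.map j (I • (⊤ : Submodule T V))) :
    X0 q j I K t →+ (V ⧸ I • (⊤ : Submodule T V)) where
  toFun x := Submodule.Quotient.mk (Classical.choose ((mem_X0 q j I K t _).1 x.2))
  map_zero' := by
    have h := Classical.choose_spec ((mem_X0 q j I K t _).1 (0 : X0 q j I K t).2)
    have h0 : Phi (n := n) q t ((0 : X0 q j I K t) : Fin (n * s) → W) - j 0 ∈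
        I ^ K • (⊤ : Submodule T (Fin n → M)) := by simp
    rw [mk_eq_mk_of_mem q j I K t hj hAR h h0]
    rfl
  map_add' x x' := by
    have h := Classical.choose_spec ((mem_X0 q j I K t _).1 x.2)
    have h' := Classical.choose_spec ((mem_X0 q j I K t _).1 x'.2)
    have h'' := Classical.choose_spec ((mem_X0 q j I K t _).1 (x + x').2)
    rw [← Submodule.Quotient.mk_add]
    refine mk_eq_mk_of_mem q j I K t hj hAR h'' ?_
    have : Phi (n := n) q t ((x + x' : X0 q j I K t) : Fin (n * s) → W) -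
        j (Classical.choose ((mem_X0 q j I K t _).1 x.2) +
          Classical.choose ((mem_X0 q j I K t _).1 x'.2)) =
        (Phi (n := n) q t (x : Fin (n * s) → W) -
            j (Classical.choose ((mem_X0 q j I K t _).1 x.2))) +
          (Phi (n := n) q t (x' : Fin (n * s) → W) -
            j (Classical.choose ((mem_X0 q j I K t _).1 x'.2))) := by
      rw [AddSubgroup.coe_add, map_add, map_add]; abel
    rw [this]
    exact Submodule.add_mem _ h h'

theorem f0_eq (hj : Function.Injective j)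
    (hAR : I ^ K • (⊤ : Submodule T (Fin n → M)) ⊓ LinearMap.range j ≤
      Submodule.map j (I • (⊤ : Submodule T V)))
    (y : Fin (n * s) → W) (v : V)
    (hv : Phi (n := n) q t y - j v ∈ I ^ K • (⊤ : Submodule T (Fin n → M)))
    (hy : y ∈ X0 q j I K t) :
    f0 q j I K t hj hAR ⟨y, hy⟩ = Submodule.Quotient.mk v :=
  mk_eq_mk_of_mem q j I K t hj hAR
    (Classical.choose_spec ((mem_X0 q j I K t _).1 hy)) hv

end Core

/-- **Artin–Rees chain**: `V ⧸ I V` as an equivariant subquotient of a finite power of `W`, the source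
of the quotient map being killed by a power of `c`. -/
theorem exists_subquot_core
    {A : Type*} [CommRing A] {T : Type*} [CommRing T] [IsNoetherianRing T] [Algebra A T]
    {W : Type*} [AddCommGroup W] [Module A W]
    {M : Type*} [AddCommGroup M] [Module T M] [Module.Finite T M]
    (q : T ⊗[A] W →ₗ[T] M) (hq : Function.Surjective q)
    {V : Type*} [AddCommGroup V] [Module T V] [Module.Finite T V]
    {n : ℕ} (j : V →ₗ[T] (Fin n → M)) (hj : Function.Injective j)
    (I : Ideal T) [Finite (T ⧸ I)] (c : A)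
    (hc : ∀ k : ℕ, ∃ m : ℕ, algebraMap A T (c ^ m) ∈ I ^ k) :
    ∃ (R m : ℕ) (X₀ : AddSubgroup (Fin R → W)) (f₀ : X₀ →+ (V ⧸ I • (⊤ : Submodule T V))),
      Function.Surjective f₀ ∧
      (∀ y : Fin R → W, ∃ hy : (c ^ m) • y ∈ X₀, f₀ ⟨(c ^ m) • y, hy⟩ = 0) ∧
      ∀ (gW : W →ₗ[A] W) (gM : M →ₗ[T] M) (gV : V →ₗ[T] V)
        (hgV : I • (⊤ : Submodule T V) ≤ (I • (⊤ : Submodule T V)).comap gV),
        (∀ y, q (gW.baseChange T y) = gM (q y)) → (∀ v i, j (gV v) i = gM (j v i)) →
        ∀ x : X₀, ∃ hx : (fun i => gW ((x : Fin R → W) i)) ∈ X₀,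
          f₀ ⟨_, hx⟩ = (I • (⊤ : Submodule T V)).mapQ _ gV hgV (f₀ x) := by
  classical
  -- Artin–Rees
  obtain ⟨k, hk⟩ := Ideal.exists_pow_inf_eq_pow_smul I (LinearMap.range j)
  obtain ⟨K, hK⟩ : ∃ K, K = k + 1 := ⟨_, rfl⟩
  have hAR : I ^ K • (⊤ : Submodule T (Fin n → M)) ⊓ LinearMap.range j ≤
      Submodule.map j (I • (⊤ : Submodule T V)) := by
    rw [hk K (by omega)]
    have h1 : K - k = 1 := by omega
    rw [h1, pow_one, Submodule.map_smul'', Submodule.map_top]
    exact smul_mono_right _ inf_le_right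
  -- representatives of `T ⧸ I ^ K`
  have : Finite (T ⧸ I ^ K) := Ideal.finite_quotient_pow (IsNoetherian.noetherian I) K
  obtain ⟨s, ⟨e⟩⟩ := Finite.exists_equiv_fin (T ⧸ I ^ K)
  obtain ⟨t, ht⟩ : ∃ t : Fin s → T, ∀ a : T, ∃ l, a - t l ∈ I ^ K := by
    refine ⟨fun l => Quotient.out (e.symm l), fun a => ⟨e (Ideal.Quotient.mk _ a), ?_⟩⟩
    rw [← Ideal.Quotient.eq]
    simp
  obtain ⟨m, hm⟩ := hc K
  refine ⟨n * s, m, X0 q j I K t, f0 q j I K t hj hAR, ?_, ?_, ?_⟩
  · -- surjectivity
    intro vbar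
    obtain ⟨v, rfl⟩ := Submodule.Quotient.mk_surjective _ vbar
    obtain ⟨y, hy⟩ := exists_Phi_sub_mem q I K t hq ht (j v)
    exact ⟨⟨y, (mem_X0 q j I K t _).2 ⟨v, hy⟩⟩, f0_eq q j I K t hj hAR y v hy _⟩
  · -- `c ^ m` kills
    intro y
    have h0 : Phi (n := n) q t ((c ^ m) • y) - j 0 ∈ I ^ K • (⊤ : Submodule T (Fin n → M)) := by
      rw [map_zero, sub_zero]
      exact Phi_smul_mem q I K t (c ^ m) hm y
    exact ⟨(mem_X0 q j I K t _).2 ⟨0, h0⟩,
      (f0_eq q j I K t hj hAR _ 0 h0 _).trans (Submodule.Quotient.mk_zero _)⟩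
  · -- equivariance
    intro gW gM gV hgV hqg hjg x
    obtain ⟨v, hv⟩ := (mem_X0 q j I K t _).1 x.2
    have hjg' : j (gV v) = gM.compLeft (Fin n) (j v) := by
      ext i
      rw [hjg]
      rfl
    have h1 : Phi (n := n) q t (fun r => gW ((x : Fin (n * s) → W) r)) - j (gV v) ∈
        I ^ K • (⊤ : Submodule T (Fin n → M)) := by
      rw [Phi_comp q t gW gM hqg, hjg', ← map_sub]
      exact Submodule.smul_top_le_comap_smul_top (I ^ K) (gM.compLeft (Fin n)) hv
    have h2 : f0 q j I K t hj hAR x = Submodule.Quotient.mk v :=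
      f0_eq q j I K t hj hAR _ v hv x.2
    refine ⟨(mem_X0 q j I K t _).2 ⟨gV v, h1⟩, ?_⟩
    rw [h2, Submodule.mapQ_apply]
    exact f0_eq q j I K t hj hAR _ (gV v) h1 _

end Fermat.Agent.ES.V32.SubQuotCore19
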