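/-
Programme V (S32), chapter V32, helper18: **the exit of the algebra part** — for a Hecke–Galois datum `H`
(`p` odd, `p ∈ S ⊇ {q ∣ N}`, `char 𝒪 = 0`) and every ideal `I` of `T` with `T ⧸ I` finite, the Galois
module `H.ρ.V ⧸ I V` is an equivariant quotient of a Galois-stable subgroup of `J₀(N)[p^m]^r`.

`Inst18.exists_embedding_datum` (`V ↪ ModJⁿ`), `SubQuotCore19.exists_subquot_core` (Artin–Rees chain,
helper19) with `A = ℤ_p`, `W = T_p J₀(N)`, `c = p`, and the projections `T_p J → J[p^m]`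
(`TateModule13.proj`, kernel `p^m T_p J`).
-/
import Mathlib
import Fermat.Prelude.Def_GaloisRep_Flat
import Fermat.Agent.ES.J.PadicAlg8
import Fermat.Agent.ES.V32.Inst18
import Fermat.Agent.ES.V32.SubQuotCore19

set_option autoImplicit false
set_option linter.unusedSectionVars false
set_option linter.style.haveILetI false

open TensorProduct Module CuspForm

noncomputable section

namespace Fermat.Agent.ES.V32.SubQuot18

open Fermat.Agent.ES.J.TateJZero13 Fermat.Agent.ES.J.TateModule13 Fermat.Agent.ES.V32.HeckeMod18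
  Fermat.Agent.ES.V32.Inst18

/-! ### Componentwise projection of the Tate module -/

section Proj

variable (p : ℕ) [hp : Fact p.Prime] (J : Type*) [AddCommGroup J]

/-- the componentwise projection `(T_p J)^R → J^R` at level `m`. -/
def projAll (R m : ℕ) : (Fin R → TateModule p J) →+ (Fin R → J) :=
  (proj (p := p) (J := J) m).compLeft (Fin R)

theorem projAll_apply (R m : ℕ) (y : Fin R → TateModule p J) (i : Fin R) :
    projAll p J R m y i = proj m (y i) := rfl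

theorem projAll_eq_zero_iff (R m : ℕ) (y : Fin R → TateModule p J) :
    projAll p J R m y = 0 ↔ ∃ z : Fin R → TateModule p J, y = ((p : ℤ_[p]) ^ m) • z := by
  constructor
  · intro h
    have h' : ∀ i, ∃ z : TateModule p J, y i = ((p : ℤ_[p]) ^ m) • z := fun i =>
      (proj_eq_zero_iff' m (y i)).mp (congrFun h i)
    choose z hz using h'
    exact ⟨z, funext fun i => by rw [Pi.smul_apply, hz i]⟩
  · rintro ⟨z, rfl⟩
    funext i
    rw [projAll_apply, Pi.smul_apply, Pi.zero_apply]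
    exact (proj_eq_zero_iff' m _).mpr ⟨z i, rfl⟩

theorem pow_smul_projAll (R m : ℕ) (y : Fin R → TateModule p J) (i : Fin R) :
    (p ^ m) • projAll p J R m y i = 0 := pow_smul_proj m (y i)

end Proj

/-! ### A power of `p` in `I ^ k` -/

theorem exists_pow_mem {p : ℕ} {T : Type*} [CommRing T] [IsLocalRing T] [IsNoetherianRing T]
    (hpT : (p : T) ∈ IsLocalRing.maximalIdeal T) (I : Ideal T) [Finite (T ⧸ I)] (k : ℕ) :
    ∃ m : ℕ, (p : T) ^ m ∈ I ^ k := by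
  have : Finite (T ⧸ I ^ k) := Ideal.finite_quotient_pow (IsNoetherian.noetherian I) k
  obtain ⟨a, b, hab, h⟩ := Finite.exists_ne_map_eq_of_infinite
    (fun m : ℕ => Ideal.Quotient.mk (I ^ k) ((p : T) ^ m))
  wlog hlt : a < b generalizing a b
  · exact this b a hab.symm h.symm (lt_of_le_of_ne (not_lt.mp hlt) hab.symm)
  refine ⟨a, ?_⟩
  have h1 : (p : T) ^ a - (p : T) ^ b ∈ I ^ k := (Ideal.Quotient.eq).mp h
  have h2 : (p : T) ^ a - (p : T) ^ b = (p : T) ^ a * (1 - (p : T) ^ (b - a)) := by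
    rw [mul_sub, mul_one, ← pow_add, Nat.add_sub_cancel' hlt.le]
  have hu : IsUnit (1 - (p : T) ^ (b - a)) := by
    apply IsLocalRing.isUnit_one_sub_self_of_mem_nonunits
    rw [← IsLocalRing.mem_maximalIdeal]
    exact Ideal.pow_mem_of_mem _ hpT _ (Nat.sub_pos_of_lt hlt)
  rw [h2] at h1
  exact (Ideal.mul_unit_mem_iff_mem _ hu).mp h1

/-! ### The exit literal -/

section Main

variable {p : ℕ} [hp : Fact p.Prime] {N : ℕ} [NeZero N] {S : Finset ℕ}
  {𝒪 : Type} [CommRing 𝒪] [IsDomain 𝒪] [IsDiscreteValuationRing 𝒪]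
  [IsAdicComplete (IsLocalRing.maximalIdeal 𝒪) 𝒪]
  {θ : CuspForm.heckeAlgebra N 2 (↑S : Set ℕ) →+* IsLocalRing.ResidueField 𝒪}
  {T : Type} [CommRing T] [IsLocalRing T] [IsNoetherianRing T]
  [IsAdicComplete (IsLocalRing.maximalIdeal T) T] [Algebra 𝒪 T] [IsLocalHom (algebraMap 𝒪 T)]
  [Module.Finite 𝒪 T] [Module.Free 𝒪 T]

omit hp [IsDomain 𝒪] [IsDiscreteValuationRing 𝒪] [IsAdicComplete (IsLocalRing.maximalIdeal 𝒪) 𝒪]
  [IsNoetherianRing T] [IsAdicComplete (IsLocalRing.maximalIdeal T) T] [Module.Finite 𝒪 T]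
  [Module.Free 𝒪 T] in
/-- `p ∈ 𝔪_T`. -/
theorem natCast_mem_maximalIdeal [IsLocalRing 𝒪] (hp𝒪 : (p : 𝒪) ∈ IsLocalRing.maximalIdeal 𝒪) :
    (p : T) ∈ IsLocalRing.maximalIdeal T := by
  rw [IsLocalRing.mem_maximalIdeal, mem_nonunits_iff] at hp𝒪 ⊢
  intro h
  apply hp𝒪
  have : IsUnit (algebraMap 𝒪 T (p : 𝒪)) := by rwa [map_natCast]
  exact isUnit_of_map_unit (algebraMap 𝒪 T) _ this

/-- **EXIT of the algebra part of V32**: `V ⧸ I V` is an equivariant quotient of a Galois-stable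
subgroup of `J₀(N)[p^m]^r`. -/
theorem exists_subquot_jacobian [CharZero 𝒪] (hp2 : p ≠ 2)
    (hp𝒪 : (p : 𝒪) ∈ IsLocalRing.maximalIdeal 𝒪) (hpS : p ∈ S)
    (hNS : ∀ q : ℕ, q.Prime → q ∣ N → q ∈ S)
    (H : HeckeGaloisRepDatum N (↑S : Set ℕ) 𝒪 θ T) (I : Ideal T) [Finite (T ⧸ I)] :
    ∃ (r m : ℕ) (X : AddSubgroup (Fin r → ModularCurve.JZero N)),
      (∀ x ∈ X, ∀ i, (p ^ m) • x i = 0) ∧
      (∀ σ : GQ, ∀ x ∈ X, σ • x ∈ X) ∧
      ∃ f : X →+ (H.ρ.V ⧸ I • (⊤ : Submodule T H.ρ.V)), Function.Surjective f ∧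
        ∀ (σ : GQ) (x : X) (hσx : σ • (x : Fin r → ModularCurve.JZero N) ∈ X),
          f ⟨σ • (x : Fin r → ModularCurve.JZero N), hσx⟩ = H.ρ.levelAction I σ (f x) := by
  classical
  have hpT : (p : T) ∈ IsLocalRing.maximalIdeal T := natCast_mem_maximalIdeal hp𝒪
  letI : Algebra ℤ_[p] T :=
    Fermat.Agent.ES.J.PadicAlg8.padicAlgebra p (IsLocalRing.maximalIdeal T) hpT
  obtain ⟨n, j, hj, hjeq⟩ := exists_embedding_datum (𝒪 := 𝒪) p hNS H hp2 hpT hpS
  have hfinM := finite_modJ p hNS H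
  let q : T ⊗[ℤ_[p]] TJ p N →ₗ[T] ModJ p hNS H :=
    (relSub T (thetaJ p hNS) (fun b => kap (p := p) H b)).mkQ
  have hq : Function.Surjective q := Submodule.mkQ_surjective _
  have hc : ∀ k : ℕ, ∃ m : ℕ, algebraMap ℤ_[p] T ((p : ℤ_[p]) ^ m) ∈ I ^ k := by
    intro k
    obtain ⟨m, hm⟩ := exists_pow_mem hpT I k
    exact ⟨m, by rw [map_pow, map_natCast]; exact hm⟩
  obtain ⟨R, m, X₀, f₀, hsurj, hkill, hequiv⟩ :=
    Fermat.Agent.ES.V32.SubQuotCore19.exists_subquot_core q hq j hj I (p : ℤ_[p]) hc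
  -- the equivariance of `X₀`, `f₀` under `σ`
  have hσ : ∀ (σ : GQ) (x : X₀), ∃ hx : (fun i => rhoT p N σ ((x : Fin R → TJ p N) i)) ∈ X₀,
      f₀ ⟨_, hx⟩ = H.ρ.levelAction I σ (f₀ x) := fun σ x =>
    hequiv (rhoT p N σ) (rhoJ p hNS H σ) (H.ρ.ρ σ) _ (fun y => rfl) (hjeq σ) x
  -- the projection to `J₀(N)^R`
  let P := projAll p (ModularCurve.JZero N) R m
  let g : X₀ →+ X₀.map P := P.addSubgroupMap X₀
  have hg : Function.Surjective g := P.addSubgroupMap_surjective X₀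
  have hker : g.ker ≤ f₀.ker := by
    intro x hx
    rw [AddMonoidHom.mem_ker] at hx ⊢
    have hx' : P (x : Fin R → TJ p N) = 0 := congrArg Subtype.val hx
    obtain ⟨z, hz⟩ := (projAll_eq_zero_iff p _ R m _).mp hx'
    obtain ⟨hy, h0⟩ := hkill z
    have : x = ⟨((p : ℤ_[p]) ^ m) • z, hy⟩ := Subtype.ext hz
    rw [this, h0]
  let f : X₀.map P →+ (H.ρ.V ⧸ I • (⊤ : Submodule T H.ρ.V)) :=
    g.liftOfSurjective hg ⟨f₀, hker⟩
  have hfg : ∀ x : X₀, f (g x) = f₀ x := fun x =>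
    g.liftOfRightInverse_comp_apply _ _ ⟨f₀, hker⟩ x
  -- `σ` commutes with the projection
  have hPσ : ∀ (σ : GQ) (y : Fin R → TJ p N),
      σ • P y = P (fun i => rhoT p N σ (y i)) := fun σ y => rfl
  refine ⟨R, m, X₀.map P, ?_, ?_, f, ?_, ?_⟩
  · rintro _ ⟨y, _, rfl⟩ i
    exact pow_smul_projAll p _ R m y i
  · rintro σ _ ⟨y, hy, rfl⟩
    obtain ⟨hx, -⟩ := hσ σ ⟨y, hy⟩
    rw [hPσ]
    exact ⟨_, hx, rfl⟩
  · intro v
    obtain ⟨x, rfl⟩ := hsurj v
    exact ⟨g x, hfg x⟩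
  · intro σ x hσx
    obtain ⟨y, rfl⟩ := hg x
    obtain ⟨hx, hfx⟩ := hσ σ y
    have e : (⟨σ • ((g y : X₀.map P) : Fin R → ModularCurve.JZero N), hσx⟩ : X₀.map P) =
        g ⟨_, hx⟩ := Subtype.ext (hPσ σ _)
    rw [e, hfg, hfg, hfx]

end Main

end Fermat.Agent.ES.V32.SubQuot18
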