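/-
Programme V, chapter V32 (S32 from the order-level S19), `FlatClosure18` (helper18): **the closure step**.

* `exists_hopfAlgebra_of_subquot` (generic): if `M` carries a `Gal(ℚ̄/ℚ)`-equivariant Hopf order over
  `ℤ_(ℓ)` (`OrderHyp4.IsEquivOrder`), `X ↪ M^r` is an equivariant subgroup and `f : X ↠ W` is an
  equivariant surjection onto a group `W` on which the action `act` factors through a finite level, then
  `W` is the group of `ℚ̄`-points of a finite flat cocommutative Hopf algebra over `ℤ_(ℓ)`, compatibly with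
  `act` (power `OrderPi18`, sub-object `OrderSub4`, quotient `OrderQuot4` + `GalSep4`, exit
  `HopfOrderBridge2`);
* `exists_maximalIdeal_pow_le` : `𝔪_T ^ n ≤ I` for an ideal `I` of finite index in a Noetherian local ring;
* `isFlatAt_of_hasGaloisOrder` : **(E3) at level `N` for all `m` ⇒ `H.ρ.IsFlatAt p`** for a Hecke–Galois
  datum `H` (`p` odd, `p ∈ S ⊇ {q ∣ N}`, `char 𝒪 = 0`), through `SubQuot18.exists_subquot_jacobian`.
-/
import Mathlib
import Fermat.Prelude.Def_GaloisRep_Flat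
import Fermat.Agent.ES.V19.OrderQuot4
import Fermat.Agent.ES.V19.GalSep4
import Fermat.Agent.ES.V19.HopfOrderBridge2
import Fermat.Agent.ES.V19.TopLevel19
import Fermat.Agent.ES.V32.OrderPi18
import Fermat.Agent.ES.V32.SubQuot18

set_option autoImplicit false
set_option linter.unusedSectionVars false
set_option linter.style.haveILetI false

open CuspForm

noncomputable section

namespace Fermat.Agent.ES.V32.FlatClosure18

open Fermat.Agent.ES.V19.OrderHyp4 Fermat.Agent.ES.V19.OrderSub4 Fermat.Agent.ES.V19.OrderQuot4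
  Fermat.Agent.ES.V19.TopLevel19 Fermat.Agent.ES.V32.OrderPi18 Fermat.Agent.ES.V32.Inst18
  Fermat.Agent.IG.VAL.Zl13

/-! ### The generic closure step -/

/-- **Sub-quotients of powers of a Galois module with a Hopf order are points of a finite flat
Hopf algebra.** -/
theorem exists_hopfAlgebra_of_subquot (ℓ : ℕ) [Fact ℓ.Prime] {M : Type} [AddCommGroup M]
    [DistribMulAction GQ M] [Finite M]
    {H : Subalgebra ↥(GaloisRep.ratLocalizedAt ℓ) (M → AlgebraicClosure ℚ)}
    (hH : IsEquivOrder GQ H) {r : ℕ}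
    {X : Type} [AddCommGroup X] [DistribMulAction GQ X] (ι : X →+ (Fin r → M))
    (hι : Function.Injective ι) (hιG : ∀ (σ : GQ) (x : X), ι (σ • x) = σ • ι x)
    {W : Type} [AddCommGroup W] (act : GQ → W → W) (f : X →+ W) (hf : Function.Surjective f)
    (hfG : ∀ (σ : GQ) (x : X), f (σ • x) = act σ (f x))
    (L : IntermediateField ℚ (AlgebraicClosure ℚ)) [FiniteDimensional ℚ L]
    (hL : ∀ σ : GQ, (∀ a ∈ L, σ a = a) → ∀ w : W, act σ w = w) :
    ∃ (H' : Type) (_ : CommRing H') (_ : HopfAlgebra (GaloisRep.ratLocalizedAt ℓ) H'),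
      Module.Finite (GaloisRep.ratLocalizedAt ℓ) H' ∧ Module.Flat (GaloisRep.ratLocalizedAt ℓ) H' ∧
      Coalgebra.IsCocomm (GaloisRep.ratLocalizedAt ℓ) H' ∧
      ∃ e : WithConv (H' →ₐ[GaloisRep.ratLocalizedAt ℓ] AlgebraicClosure ℚ) ≃ W,
        (∀ f g, e (f * g) = e f + e g) ∧
        ∀ (σ : AlgebraicClosure ℚ ≃ₐ[ℚ] AlgebraicClosure ℚ)
          (f g : WithConv (H' →ₐ[GaloisRep.ratLocalizedAt ℓ] AlgebraicClosure ℚ)),
          (∀ h : H', g h = σ (f h)) → e g = act σ (e f) := by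
  classical
  -- `act` is an action by additive automorphisms, because `f` is onto and equivariant
  have h1 : ∀ w : W, act 1 w = w := by
    intro w
    obtain ⟨x, rfl⟩ := hf w
    rw [← hfG, one_smul]
  have hmul : ∀ (σ τ : GQ) (w : W), act (σ * τ) w = act σ (act τ w) := by
    intro σ τ w
    obtain ⟨x, rfl⟩ := hf w
    rw [← hfG, ← hfG, ← hfG, mul_smul]
  have h0 : ∀ σ : GQ, act σ 0 = 0 := by
    intro σ
    have h := hfG σ 0
    rw [smul_zero, map_zero] at h
    exact h.symm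
  have hadd : ∀ (σ : GQ) (v w : W), act σ (v + w) = act σ v + act σ w := by
    intro σ v w
    obtain ⟨x, rfl⟩ := hf v
    obtain ⟨y, rfl⟩ := hf w
    rw [← map_add, ← hfG, ← hfG, ← hfG, smul_add, map_add]
  letI instW : DistribMulAction GQ W :=
    { smul := act
      one_smul := h1
      mul_smul := hmul
      smul_zero := h0
      smul_add := hadd }
  have halg : Algebra.IsAlgebraic ℚ (AlgebraicClosure ℚ) := AlgebraicClosure.isAlgebraic ℚ
  have hcl : IsAlgClosure ℚ (AlgebraicClosure ℚ) := ⟨inferInstance, inferInstance⟩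
  have hgal : IsGalois ℚ (AlgebraicClosure ℚ) := IsAlgClosure.isGalois ℚ (AlgebraicClosure ℚ)
  have hfinX : Finite X := Finite.of_injective ι hι
  have hfinW : Finite W := Finite.of_surjective f hf
  have := Fintype.ofFinite X
  -- power, sub-object, quotient
  have hPi : IsEquivOrder GQ (piOrder H (Fin r)) := isEquivOrder_piOrder hH
  have hX : IsEquivOrder GQ (subOrder (piOrder H (Fin r)) ι) :=
    isEquivOrder_subOrder hPi ι hι hιG
  have hGal : ∀ (w : W) (σ : GQ), σ • w ≠ w →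
      ∃ a : AlgebraicClosure ℚ, (∀ τ : GQ, τ • w = w → τ • a = a) ∧ σ • a ≠ a :=
    Fermat.Agent.ES.V19.GalSep4.hGal_of_finiteLevel (K := ℚ) (Ω := AlgebraicClosure ℚ) (X := W) L
      (fun σ hσ w => hL σ hσ w)
  have hW : IsEquivOrder GQ (quotOrder (subOrder (piOrder H (Fin r)) ι) f) :=
    isEquivOrder_quotOrder (K := ℚ) Fermat.Agent.ES.V19.GalSep4.hfix_gal hGal hX f hf
      (fun σ x => hfG σ x)
  exact Fermat.Agent.ES.V19.HopfOrderBridge2.exists_hopfAlgebra_of_isEquivOrder ℓ hW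

/-! ### Ideals of finite index contain a power of the maximal ideal -/

theorem exists_maximalIdeal_pow_le {T : Type*} [CommRing T] [IsLocalRing T] [IsNoetherianRing T]
    (I : Ideal T) [Finite (T ⧸ I)] : ∃ n : ℕ, IsLocalRing.maximalIdeal T ^ n ≤ I := by
  apply Ideal.exists_pow_le_of_le_radical_of_fg _ (IsNoetherian.noetherian _)
  intro x hx
  obtain ⟨a, b, hab, h⟩ := Finite.exists_ne_map_eq_of_infinite
    (fun m : ℕ => Ideal.Quotient.mk I (x ^ m))
  wlog hlt : a < b generalizing a b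
  · exact this b a hab.symm h.symm (lt_of_le_of_ne (not_lt.mp hlt) hab.symm)
  refine ⟨a, ?_⟩
  have h1 : x ^ a - x ^ b ∈ I := (Ideal.Quotient.eq).mp h
  have h2 : x ^ a - x ^ b = x ^ a * (1 - x ^ (b - a)) := by
    rw [mul_sub, mul_one, ← pow_add, Nat.add_sub_cancel' hlt.le]
  have hu : IsUnit (1 - x ^ (b - a)) := by
    apply IsLocalRing.isUnit_one_sub_self_of_mem_nonunits
    rw [← IsLocalRing.mem_maximalIdeal]
    exact Ideal.pow_mem_of_mem _ hx _ (Nat.sub_pos_of_lt hlt)
  rw [h2] at h1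
  exact (Ideal.mul_unit_mem_iff_mem _ hu).mp h1

/-! ### The instance -/

section Main

variable {p : ℕ} [hp : Fact p.Prime] {N : ℕ} [NeZero N] {S : Finset ℕ}
  {𝒪 : Type} [CommRing 𝒪] [IsDomain 𝒪] [IsDiscreteValuationRing 𝒪]
  [IsAdicComplete (IsLocalRing.maximalIdeal 𝒪) 𝒪]
  {θ : CuspForm.heckeAlgebra N 2 (↑S : Set ℕ) →+* IsLocalRing.ResidueField 𝒪}
  {T : Type} [CommRing T] [IsLocalRing T] [IsNoetherianRing T]
  [IsAdicComplete (IsLocalRing.maximalIdeal T) T] [Algebra 𝒪 T] [IsLocalHom (algebraMap 𝒪 T)]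
  [Module.Finite 𝒪 T] [Module.Free 𝒪 T]

/-- **(E3) at level `N` for every `m` ⇒ `H.ρ` is flat at `p`.** -/
theorem isFlatAt_of_hasGaloisOrder [Finite (IsLocalRing.ResidueField 𝒪)] [CharZero 𝒪]
    (hp2 : p ≠ 2) (hp𝒪 : (p : 𝒪) ∈ IsLocalRing.maximalIdeal 𝒪) (hpS : p ∈ S)
    (hNS : ∀ q : ℕ, q.Prime → q ∣ N → q ∈ S)
    (H : HeckeGaloisRepDatum N (↑S : Set ℕ) 𝒪 θ T)
    (hE3 : ∀ m : ℕ, HasGaloisOrder p N m) : H.ρ.IsFlatAt p := by
  classical
  refine ⟨IsLocalRing.ResidueField.finite_of_finite (R := 𝒪) (S := T) inferInstance, ?_⟩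
  intro I hI
  obtain ⟨r, m, X, hXt, hXs, f, hf, hfeq⟩ :=
    Fermat.Agent.ES.V32.SubQuot18.exists_subquot_jacobian hp2 hp𝒪 hpS hNS H I
  obtain ⟨H0, hH0⟩ := hE3 m
  have hfinM : Finite (Tors N p m) := finite_tors N p m hp.out.ne_zero
  -- the Galois action on `X`
  letI instX : DistribMulAction GQ ↥X :=
    { smul := fun σ x => ⟨σ • (x : Fin r → ModularCurve.JZero N), hXs σ x x.2⟩
      one_smul := fun x => Subtype.ext (one_smul _ _)
      mul_smul := fun σ τ x => Subtype.ext (mul_smul _ _ _)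
      smul_zero := fun σ => Subtype.ext (by
        exact smul_zero (A := Fin r → ModularCurve.JZero N) σ)
      smul_add := fun σ x y => Subtype.ext (by
        exact smul_add σ (x : Fin r → ModularCurve.JZero N) (y : Fin r → ModularCurve.JZero N)) }
  -- `X ↪ J₀(N)[p^m]^r`
  let ι : ↥X →+ (Fin r → Tors N p m) :=
    { toFun := fun x i => ⟨(x : Fin r → ModularCurve.JZero N) i,
        (mem_tors_iff _).mpr (hXt x x.2 i)⟩
      map_zero' := rfl
      map_add' := fun _ _ => rfl }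
  have hι : Function.Injective ι := by
    intro x y hxy
    apply Subtype.ext
    funext i
    exact congrArg (fun z : Fin r → Tors N p m => ((z i : Tors N p m) : ModularCurve.JZero N)) hxy
  have hιG : ∀ (σ : GQ) (x : ↥X), ι (σ • x) = σ • ι x := fun _ _ => rfl
  -- the finite level of `V ⧸ I V`
  obtain ⟨n, hn⟩ := exists_maximalIdeal_pow_le I
  obtain ⟨L, hLfin, hL⟩ := H.ρ.isAdicContinuous n
  refine exists_hopfAlgebra_of_subquot p hH0 ι hι hιG (fun σ w => H.ρ.levelAction I σ w) f hf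
    (fun σ x => hfeq σ x _) L ?_
  intro σ hσ w
  obtain ⟨v, rfl⟩ := Submodule.Quotient.mk_surjective _ w
  show Submodule.mapQ _ _ (H.ρ.ρ σ) _ (Submodule.Quotient.mk v) = Submodule.Quotient.mk v
  rw [Submodule.mapQ_apply, Submodule.Quotient.eq]
  exact Submodule.smul_mono_left hn (hL σ hσ v)

end Main

end Fermat.Agent.ES.V32.FlatClosure18
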