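/-
Programme V, chapter V32, `S32Asm18` (helper18): **S32 from the geometric input of S19.**

`isFlatAt_of_hasXiChart` : if the chart hypothesis `TopInst19.HasXiChart ℓ (auxLevel ℓ N) k` holds for all
`N`, `ℓ ∤ N`, `k` (literally the hypothesis `hgeo` of `TopInst19.s19_of_hasXiChart`), then the statement of
the frozen S32 holds: `H.ρ.IsFlatAt p` for every Hecke–Galois datum `H` (`p` odd, `p ∤ N`,
`p ∈ S ⊇ {q ∣ N}`, `char 𝒪 = 0`).  Proof: `TopInst19.hasGaloisOrder_of_hasXiChart_auxLevel` gives the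
order-level statement (E3) at level `N` for every `m`, and `FlatClosure18.isFlatAt_of_hasGaloisOrder`
closes.
-/
import Mathlib
import Fermat.Agent.ES.V19.TopInst19
import Fermat.Agent.ES.V32.FlatClosure18

set_option autoImplicit false
set_option linter.unusedSectionVars false

open CuspForm

noncomputable section

namespace Fermat.Agent.ES.V32.S32Asm18

open Fermat.Agent.ES.V19.TopInst19
open Fermat.Agent.RED.Interface4 (auxLevel)

variable {p : ℕ} {N : ℕ} [NeZero N] {S : Finset ℕ}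
  {𝒪 : Type} [CommRing 𝒪] [IsDomain 𝒪] [IsDiscreteValuationRing 𝒪]
  [IsAdicComplete (IsLocalRing.maximalIdeal 𝒪) 𝒪]
  {θ : CuspForm.heckeAlgebra N 2 (↑S : Set ℕ) →+* IsLocalRing.ResidueField 𝒪}
  {T : Type} [CommRing T] [IsLocalRing T] [IsNoetherianRing T]
  [IsAdicComplete (IsLocalRing.maximalIdeal T) T] [Algebra 𝒪 T] [IsLocalHom (algebraMap 𝒪 T)]
  [Module.Finite 𝒪 T] [Module.Free 𝒪 T]

/-- **S32 from the geometric input of S19.** -/
theorem isFlatAt_of_hasXiChart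
    (hgeo : ∀ (N ℓ k : ℕ) [NeZero N] [Fact ℓ.Prime], ¬ ℓ ∣ N → HasXiChart ℓ (auxLevel ℓ N) k)
    [Finite (IsLocalRing.ResidueField 𝒪)] [CharZero 𝒪]
    (hp : p.Prime) (hp2 : p ≠ 2) (hp𝒪 : (p : 𝒪) ∈ IsLocalRing.maximalIdeal 𝒪) (hpN : ¬ p ∣ N)
    (hpS : p ∈ S) (hNS : ∀ q : ℕ, q.Prime → q ∣ N → q ∈ S)
    (H : CuspForm.HeckeGaloisRepDatum N (↑S : Set ℕ) 𝒪 θ T) :
    H.ρ.IsFlatAt p := by
  have : Fact p.Prime := ⟨hp⟩
  exact Fermat.Agent.ES.V32.FlatClosure18.isFlatAt_of_hasGaloisOrder hp2 hp𝒪 hpS hNS H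
    (fun m => hasGaloisOrder_of_hasXiChart_auxLevel p N m (hgeo N p m hpN))

end Fermat.Agent.ES.V32.S32Asm18
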